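import Fermat.Agent.Perfect.Transference
import Mathlib.MeasureTheory.Measure.Lebesgue.VolumeOfBalls
import Mathlib.Analysis.Normed.Module.Ball.Pointwise

/-!
# Lattice packings of balls

Balls of radius `r` about the points of `B ℤ ^ m` are disjoint iff the form `Bᵀ B` is at least
`4 r ²` at nonzero integral vectors, so the densest lattice packing has density
`vol (unit ball) √(γ ^ m) / 2 ^ m`, and one exists in every dimension.
-/

set_option autoImplicit false
set_option linter.style.haveILetI false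

noncomputable section

open Matrix MeasureTheory FA.Reduction FA.UnitsOrders FA.OrthogonalUnits

namespace FA.Perfect

variable {n : ℕ}

/-- The point of the lattice `B ℤ ^ m` with coordinates `z`. -/
def latticePoint {m : ℕ} (B : Matrix (Fin m) (Fin m) ℝ) (z : Fin m → ℤ) :
    EuclideanSpace ℝ (Fin m) :=
  WithLp.toLp 2 (B *ᵥ castVec z)

/-- The balls of radius `r` about the lattice points are pairwise disjoint. -/
def IsLatticePacking {m : ℕ} (B : Matrix (Fin m) (Fin m) ℝ) (r : ℝ) : Prop :=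
  Pairwise fun z w : Fin m → ℤ =>
    Disjoint (Metric.ball (latticePoint B z) r) (Metric.ball (latticePoint B w) r)

/-- The densities of the lattice packings of balls. -/
def latticePackingDensities (m : ℕ) : Set ℝ :=
  {δ | ∃ (B : Matrix (Fin m) (Fin m) ℝ) (r : ℝ), B.det ≠ 0 ∧ 0 < r ∧ IsLatticePacking B r ∧
    δ = volume.real (Metric.ball (0 : EuclideanSpace ℝ (Fin m)) r) / |B.det|}

theorem latticePoint_sub {m : ℕ} (B : Matrix (Fin m) (Fin m) ℝ) (z w : Fin m → ℤ) :
    latticePoint B z - latticePoint B w = latticePoint B (z - w) := by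
  rw [latticePoint, latticePoint, latticePoint, ← WithLp.toLp_sub, ← mulVec_sub]
  exact congrArg (fun x => WithLp.toLp 2 (B *ᵥ x)) (funext fun i => by simp [castVec])

theorem norm_latticePoint_sq {m : ℕ} (B : Matrix (Fin m) (Fin m) ℝ) (z : Fin m → ℤ) :
    ‖latticePoint B z‖ ^ 2 = ival (Bᵀ * B) z := by
  rw [EuclideanSpace.real_norm_sq_eq, show ival (Bᵀ * B) z = quad (Bᵀ * B) (castVec z) from rfl,
    quad_transpose_mul_self]
  rfl

theorem isLatticePacking_iff {m : ℕ} (B : Matrix (Fin m) (Fin m) ℝ) {r : ℝ} (hr : 0 < r) :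
    IsLatticePacking B r ↔ ∀ z : Fin m → ℤ, z ≠ 0 → (2 * r) ^ 2 ≤ ival (Bᵀ * B) z := by
  have key : ∀ z w : Fin m → ℤ,
      Disjoint (Metric.ball (latticePoint B z) r) (Metric.ball (latticePoint B w) r) ↔
        (2 * r) ^ 2 ≤ ival (Bᵀ * B) (z - w) := fun z w => by
    rw [disjoint_ball_ball_iff hr hr, dist_eq_norm, latticePoint_sub, ← norm_latticePoint_sq,
      ← two_mul, pow_le_pow_iff_left₀ (by positivity) (norm_nonneg _) two_ne_zero]
  refine ⟨fun h z hz => ?_, fun h z w hzw => (key z w).2 (h _ (sub_ne_zero.2 hzw))⟩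
  simpa using (key z 0).1 (h hz)

theorem posDef_transpose_mul_self {m : ℕ} {B : Matrix (Fin m) (Fin m) ℝ} (hB : B.det ≠ 0) :
    (Bᵀ * B).PosDef := by
  rw [← conjTranspose_eq_transpose_of_trivial]
  exact Matrix.PosDef.conjTranspose_mul_self B
    (mulVec_injective_of_isUnit_det (isUnit_iff_ne_zero.2 hB))

theorem volume_real_euclidBall (m : ℕ) {r : ℝ} (hr : 0 ≤ r) :
    volume.real (Metric.ball (0 : EuclideanSpace ℝ (Fin (m + 1))) r) =
      r ^ (m + 1) * (Real.sqrt Real.pi ^ (m + 1) / Real.Gamma ((m + 1 : ℕ) / 2 + 1)) := by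
  rw [measureReal_def, EuclideanSpace.volume_ball, Fintype.card_fin, ENNReal.toReal_mul,
    ENNReal.toReal_pow, ENNReal.toReal_ofReal hr, ENNReal.toReal_ofReal]
  exact div_nonneg (by positivity) (Real.Gamma_pos_of_pos (by positivity)).le

/-- **The densest lattice packing** from the constant of Hermite. -/
theorem isGreatest_packing {c : ℝ}
    (hc : IsGreatest (hermiteInv '' {P : Matrix (Fin (n + 1)) (Fin (n + 1)) ℝ | P.PosDef}) c) :
    IsGreatest (latticePackingDensities (n + 1))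
      (Real.sqrt Real.pi ^ (n + 1) / Real.Gamma ((n + 1 : ℕ) / 2 + 1) *
        (Real.sqrt c / 2 ^ (n + 1))) := by
  set κ := Real.sqrt Real.pi ^ (n + 1) / Real.Gamma ((n + 1 : ℕ) / 2 + 1)
  have hκ : 0 ≤ κ := div_nonneg (by positivity) (Real.Gamma_pos_of_pos (by positivity)).le
  refine ⟨?_, ?_⟩
  · obtain ⟨P, hP, rfl⟩ := hc.1
    obtain ⟨d, T, hd, -, hTu, hPT⟩ := exists_upper hP
    set B := diagonal (fun i => Real.sqrt (d i)) * T
    have hB : Bᵀ * B = P := by
      rw [hPT, show Bᵀ * B = Tᵀ * (diagonal (fun i => Real.sqrt (d i)) *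
        diagonal (fun i => Real.sqrt (d i))) * T by
          simp only [B, transpose_mul, diagonal_transpose, Matrix.mul_assoc], diagonal_mul_diagonal]
      exact congrArg (fun v => Tᵀ * diagonal v * T)
        (funext fun i => Real.mul_self_sqrt (hd i).le)
    have hdet : |B.det| = Real.sqrt P.det := by
      have h2 : (Bᵀ * B).det = B.det * B.det := (det_mul _ _).trans (by rw [det_transpose])
      rw [← hB, h2, Real.sqrt_mul_self_eq_abs]
    have hmv := minVal_pos hP
    refine ⟨B, Real.sqrt (minVal P) / 2, fun h => ?_, by positivity, ?_, ?_⟩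
    · rw [h, abs_zero] at hdet
      exact (Real.sqrt_pos.2 hP.det_pos).ne hdet
    · rw [isLatticePacking_iff B (by positivity), hB, mul_div_cancel₀ _ two_ne_zero,
        Real.sq_sqrt hmv.le]
      exact fun z hz => minVal_le hP hz
    · rw [volume_real_euclidBall n (by positivity), hdet, hermiteInv,
        Real.sqrt_div (by positivity), show Real.sqrt (minVal P ^ (n + 1)) =
          Real.sqrt (minVal P) ^ (n + 1) by
            rw [Real.sqrt_eq_iff_eq_sq (by positivity) (by positivity), pow_right_comm,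
              Real.sq_sqrt hmv.le], div_pow]
      ring
  · rintro δ ⟨B, r, hB, hr, hpack, rfl⟩
    have hP := posDef_transpose_mul_self hB
    have h1 : (2 * r) ^ 2 ≤ minVal (Bᵀ * B) := le_minVal ((isLatticePacking_iff B hr).1 hpack)
    have h2 := (div_le_iff₀ hP.det_pos).1 (hc.2 ⟨_, hP, rfl⟩)
    have h3 : ((2 * r) ^ (n + 1)) ^ 2 ≤ c * B.det ^ 2 := by
      rw [pow_right_comm]
      refine (pow_le_pow_left₀ (by positivity) h1 _).trans (h2.trans_eq ?_)
      rw [det_mul, det_transpose, sq]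
    have hc0 : 0 ≤ c := by
      obtain ⟨P, hP', rfl⟩ := hc.1
      exact (hermiteInv_pos hP').le
    have h4 : (2 * r) ^ (n + 1) ≤ Real.sqrt c * |B.det| := by
      refine le_of_pow_le_pow_left₀ two_ne_zero (by positivity) (h3.trans_eq ?_)
      rw [mul_pow, Real.sq_sqrt hc0, sq_abs]
    rw [volume_real_euclidBall n hr.le, div_le_iff₀ (abs_pos.2 hB)]
    calc r ^ (n + 1) * κ = (2 * r) ^ (n + 1) * κ / 2 ^ (n + 1) := by
          rw [mul_pow, mul_assoc, mul_div_cancel_left₀ _ (pow_ne_zero _ two_ne_zero)]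
      _ ≤ Real.sqrt c * |B.det| * κ / 2 ^ (n + 1) := by gcongr
      _ = κ * (Real.sqrt c / 2 ^ (n + 1)) * |B.det| := by ring

variable (n) in
/-- A densest lattice packing exists in every dimension. -/
theorem exists_densest : ∃ δ, IsGreatest (latticePackingDensities (n + 1)) δ := by
  obtain ⟨P, hP, -, hmax, -⟩ := exists_least_det n
  exact ⟨_, isGreatest_packing ⟨⟨P, hP, rfl⟩, Set.forall_mem_image.2 fun Q hQ => hmax Q hQ⟩⟩

theorem packingValue_two :
    Real.sqrt Real.pi ^ 2 / Real.Gamma ((2 : ℕ) / 2 + 1) * (Real.sqrt (4 / 3) / 2 ^ 2) =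
      Real.pi / Real.sqrt 12 := by
  rw [Real.sq_sqrt Real.pi_nonneg, show ((2 : ℕ) : ℝ) / 2 + 1 = 2 by norm_num, Real.Gamma_two,
    Real.sqrt_div (by norm_num), show Real.sqrt 4 = 2 by
      rw [show (4 : ℝ) = 2 ^ 2 by norm_num, Real.sqrt_sq two_pos.le],
    show Real.sqrt 12 = 2 * Real.sqrt 3 by
      rw [show (12 : ℝ) = 2 ^ 2 * 3 by norm_num, Real.sqrt_mul (by positivity),
        Real.sqrt_sq two_pos.le]]
  ring

theorem packingValue_three :
    Real.sqrt Real.pi ^ 3 / Real.Gamma ((3 : ℕ) / 2 + 1) * (Real.sqrt 2 / 2 ^ 3) =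
      Real.pi / Real.sqrt 18 := by
  have hg : Real.Gamma ((3 : ℕ) / 2 + 1) = 3 / 4 * Real.sqrt Real.pi := by
    rw [show ((3 : ℕ) : ℝ) / 2 + 1 = (1 / 2 + 1) + 1 by norm_num,
      Real.Gamma_add_one (by norm_num), Real.Gamma_add_one (by norm_num), Real.Gamma_one_half_eq]
    ring
  have hp : Real.sqrt Real.pi ≠ 0 := (Real.sqrt_pos.2 Real.pi_pos).ne'
  have h2 : Real.sqrt 2 ^ 2 = 2 := Real.sq_sqrt two_pos.le
  rw [hg, show Real.sqrt 18 = 3 * Real.sqrt 2 by
    rw [show (18 : ℝ) = 3 ^ 2 * 2 by norm_num, Real.sqrt_mul (by positivity),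
      Real.sqrt_sq three_pos.le]]
  field_simp
  rw [Real.sq_sqrt Real.pi_nonneg]
  linear_combination (4 * Real.pi) * h2

theorem packingValue_four :
    Real.sqrt Real.pi ^ 4 / Real.Gamma ((4 : ℕ) / 2 + 1) * (Real.sqrt 4 / 2 ^ 4) =
      Real.pi ^ 2 / 16 := by
  rw [show Real.sqrt Real.pi ^ 4 = (Real.sqrt Real.pi ^ 2) ^ 2 by ring,
    Real.sq_sqrt Real.pi_nonneg, show ((4 : ℕ) : ℝ) / 2 + 1 = 2 + 1 by norm_num,
    Real.Gamma_add_one two_ne_zero, Real.Gamma_two, show Real.sqrt 4 = 2 by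
      rw [show (4 : ℝ) = 2 ^ 2 by norm_num, Real.sqrt_sq two_pos.le]]
  ring

end FA.Perfect

end
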