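import Fermat.Agent.Perfect.SuccessiveMinima

/-!
# Transference between a form and its inverse

Of `k + 1` and of `n + 1 - k` independent vectors in `n + 1` coordinates two are not orthogonal, so
the product of the corresponding minima of a form and of its inverse is at least one; all these
products together are at most the square of the constant of Hermite (Mahler).
-/

set_option autoImplicit false
set_option linter.style.haveILetI false

noncomputable section

open Matrix FA.Reduction FA.UnitsOrders FA.OrthogonalUnits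

namespace FA.Perfect

variable {n : ℕ}

/-- The inequality of Cauchy for a form and its inverse. -/
theorem sq_dotProduct_le {m : ℕ} {P : Matrix (Fin m) (Fin m) ℝ} (hP : P.PosDef)
    (x y : Fin m → ℝ) : (x ⬝ᵥ y) ^ 2 ≤ quad P x * quad P⁻¹ y := by
  rcases eq_or_ne y 0 with rfl | hy
  · simp [quad]
  have hq : 0 < quad P⁻¹ y := (posDef_iff_quad.1 hP.inv).2 y hy
  set w := P⁻¹ *ᵥ y
  have hPw : P *ᵥ w = y := by
    rw [mulVec_mulVec, mul_nonsing_inv _ (isUnit_iff_ne_zero.2 hP.det_pos.ne'), one_mulVec]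
  have hwx : w ⬝ᵥ (P *ᵥ x) = x ⬝ᵥ y := by
    rw [dotProduct_mulVec, ← mulVec_transpose, (posDef_iff_quad.1 hP).1.eq, hPw, dotProduct_comm]
  have hww : w ⬝ᵥ y = quad P⁻¹ y := dotProduct_comm _ _
  have h := quad_nonneg hP (quad P⁻¹ y • x - (x ⬝ᵥ y) • w)
  have e : quad P (quad P⁻¹ y • x - (x ⬝ᵥ y) • w) =
      quad P⁻¹ y * (quad P x * quad P⁻¹ y - (x ⬝ᵥ y) ^ 2) := by
    simp only [quad, Matrix.mulVec_sub, Matrix.mulVec_smul, sub_dotProduct, dotProduct_sub,
      smul_dotProduct, dotProduct_smul, smul_eq_mul, hPw, hwx] at hww ⊢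
    rw [hww]
    ring
  rw [e] at h
  exact sub_nonneg.1 (nonneg_of_mul_nonneg_right h hq)

/-- Too many independent vectors are not all orthogonal. -/
theorem exists_dotProduct_ne {m p q : ℕ} (u : Fin p → Fin m → ℝ) (v : Fin q → Fin m → ℝ)
    (hu : LinearIndependent ℝ u) (hv : LinearIndependent ℝ v) (h : m < p + q) :
    ∃ a b, u a ⬝ᵥ v b ≠ 0 := by
  by_contra! h0
  set A : Matrix (Fin p) (Fin m) ℝ := Matrix.of u
  have hrank : A.rank = p := (LinearIndependent.rank_matrix (M := A) hu).trans (Fintype.card_fin p)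
  have hle : Submodule.span ℝ (Set.range v) ≤ LinearMap.ker A.mulVecLin := by
    rw [Submodule.span_le]
    rintro _ ⟨b, rfl⟩
    exact LinearMap.mem_ker.2 (funext fun a => h0 a b)
  have h1 := Submodule.finrank_mono hle
  rw [finrank_span_eq_card hv, Fintype.card_fin] at h1
  have h2 := A.mulVecLin.finrank_range_add_finrank_ker
  rw [show Module.finrank ℝ (LinearMap.range A.mulVecLin) = p from hrank,
    Module.finrank_fin_fun] at h2
  omega

theorem one_le_succMin_mul {P : Matrix (Fin (n + 1)) (Fin (n + 1)) ℝ} (hP : P.PosDef)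
    (k : Fin (n + 1)) : 1 ≤ succMin P k * succMin P⁻¹ k.rev := by
  obtain ⟨u, hu⟩ := exists_minimaFamily hP
  obtain ⟨v, hv⟩ := exists_minimaFamily hP.inv
  obtain ⟨a, b, hab⟩ := exists_dotProduct_ne ((castVec ∘ u) ∘ Fin.castLE k.2)
    ((castVec ∘ v) ∘ Fin.castLE k.rev.2) (hu.1.comp _ (Fin.castLE_injective _))
    (hv.1.comp _ (Fin.castLE_injective _)) (by simp only [Fin.val_rev]; omega)
  rw [succMin_eq hu, succMin_eq hv]
  have ha : Fin.castLE k.2 a ≤ k := Fin.le_def.2 (Nat.le_of_lt_succ a.2)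
  have hb : Fin.castLE k.rev.2 b ≤ k.rev := Fin.le_def.2 (Nat.le_of_lt_succ b.2)
  refine le_trans ?_ (mul_le_mul (hu.2.1 ha) (hv.2.1 hb) (quad_nonneg hP.inv _)
    (quad_nonneg hP _))
  refine le_trans ?_ (sq_dotProduct_le hP _ _)
  have e : castVec (u (Fin.castLE k.2 a)) ⬝ᵥ castVec (v (Fin.castLE k.rev.2 b)) =
      ((u (Fin.castLE k.2 a) ⬝ᵥ v (Fin.castLE k.rev.2 b) : ℤ) : ℝ) := by
    simp [castVec, dotProduct]
  show 1 ≤ (castVec (u (Fin.castLE k.2 a)) ⬝ᵥ castVec (v (Fin.castLE k.rev.2 b))) ^ 2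
  rw [e]
  have hne : u (Fin.castLE k.2 a) ⬝ᵥ v (Fin.castLE k.rev.2 b) ≠ 0 := fun h => hab (by
    show castVec (u (Fin.castLE k.2 a)) ⬝ᵥ castVec (v (Fin.castLE k.rev.2 b)) = 0
    rw [e, h, Int.cast_zero])
  have h1 : (1 : ℤ) ≤ _ := pow_two_pos_of_ne_zero hne
  exact_mod_cast h1

/-- **Mahler's transference theorem.** -/
theorem transference {P : Matrix (Fin (n + 1)) (Fin (n + 1)) ℝ} (hP : P.PosDef) {c : ℝ}
    (hc : ∀ Q : Matrix (Fin (n + 1)) (Fin (n + 1)) ℝ, Q.PosDef → hermiteInv Q ≤ c)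
    (k : Fin (n + 1)) :
    1 ≤ succMin P k * succMin P⁻¹ k.rev ∧ succMin P k * succMin P⁻¹ k.rev ≤ c ^ 2 := by
  classical
  refine ⟨one_le_succMin_mul hP k, ?_⟩
  set f := fun i => succMin P i * succMin P⁻¹ i.rev
  have hprod : ∏ i, f i ≤ c ^ 2 := by
    simp only [f, Finset.prod_mul_distrib]
    rw [show ∏ i : Fin (n + 1), succMin P⁻¹ i.rev = ∏ i, succMin P⁻¹ i from
      Equiv.prod_comp Fin.revPerm (succMin P⁻¹)]
    refine (mul_le_mul (prod_succMin_bounds hP hc).2 (prod_succMin_bounds hP.inv hc).2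
      (Finset.prod_nonneg fun i _ => ((succMin_attained hP.inv).2.2.2 i).le) ?_).trans_eq ?_
    · exact (Finset.prod_nonneg fun i _ => ((succMin_attained hP).2.2.2 i).le).trans
        (prod_succMin_bounds hP hc).2
    · rw [det_nonsing_inv, Ring.inverse_eq_inv']
      field_simp [hP.det_pos.ne']
  refine le_trans ?_ hprod
  rw [← Finset.mul_prod_erase Finset.univ f (Finset.mem_univ k)]
  exact le_mul_of_one_le_right (zero_le_one.trans (one_le_succMin_mul hP k))
    (Finset.one_le_prod fun i _ => one_le_succMin_mul hP i)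

/-- The bound of Hermite. -/
theorem hermiteInv_le_hermite {P : Matrix (Fin (n + 1)) (Fin (n + 1)) ℝ} (hP : P.PosDef) :
    hermiteInv P ≤ Real.sqrt ((4 / 3 : ℝ) ^ (n * (n + 1))) := by
  obtain ⟨v, hv, h⟩ := exists_short_vector n P hP
  refine Real.le_sqrt_of_sq_le ?_
  rw [hermiteInv, div_pow, div_le_iff₀ (pow_pos hP.det_pos 2), ← pow_mul, mul_comm (n + 1) 2]
  exact (pow_le_pow_left₀ (minVal_pos hP).le (minVal_le hP hv) _).trans h

end FA.Perfect

end
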