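import Fermat.Agent.Perfect.SmallDimensions
import Mathlib.Analysis.Matrix.LDL

/-!
# The successive minima of a positive form

Vectors chosen by the least value outside the span of those before attain the successive minima. In
their basis the form is `∑ d i y i ²`, with `y i` free of the earlier coordinates; dividing the
`i`-th square by the `i`-th minimum gives a form of least value at least one (Minkowski).
-/

set_option autoImplicit false
set_option linter.style.haveILetI false

noncomputable section

open Matrix FA.Reduction FA.UnitsOrders FA.OrthogonalUnits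

namespace FA.Perfect

variable {n : ℕ}

local notation "Mat" => Matrix (Fin (n + 1)) (Fin (n + 1)) ℝ
local notation "IVec" => Fin (n + 1) → ℤ

/-- The real vector of an integral one. -/
def castVec {m : ℕ} (v : Fin m → ℤ) : Fin m → ℝ := fun i => (v i : ℝ)

/-- The `k`-th successive minimum: the least bound on the values at `k + 1` independent integral
vectors. -/
def succMin (P : Mat) (k : Fin (n + 1)) : ℝ :=
  sInf {r | ∃ u : Fin (k.1 + 1) → IVec, LinearIndependent ℝ (castVec ∘ u) ∧ ∀ j, ival P (u j) ≤ r}

/-- Independent vectors, each of least value outside the span of those before. -/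
def IsMinimaFamily (P : Mat) (v : Fin (n + 1) → IVec) : Prop :=
  LinearIndependent ℝ (castVec ∘ v) ∧ Monotone (fun k => ival P (v k)) ∧
    ∀ k, ∀ w : IVec,
      castVec w ∉ Submodule.span ℝ ((castVec ∘ v) '' {j | j < k}) → ival P (v k) ≤ ival P w

theorem exists_partial_family {P : Mat} (hP : P.PosDef) :
    ∀ m ≤ n + 1, ∃ v : Fin m → IVec, LinearIndependent ℝ (castVec ∘ v) ∧
      ∀ k, ∀ w : IVec,
        castVec w ∉ Submodule.span ℝ ((castVec ∘ v) '' {j | j < k}) →
          ival P (v k) ≤ ival P w := by
  classical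
  intro m hm
  induction m with
  | zero => exact ⟨Fin.elim0, linearIndependent_empty_type, fun k => k.elim0⟩
  | succ m ih =>
    obtain ⟨v, hv, hmin⟩ := ih (Nat.le_of_succ_le hm)
    set S := Submodule.span ℝ (Set.range (castVec ∘ v))
    obtain ⟨w₀, hw₀⟩ : ∃ w : IVec, castVec w ∉ S := by
      by_contra! h
      have htop : S = ⊤ := by
        rw [eq_top_iff, ← (Pi.basisFun ℝ (Fin (n + 1))).span_eq, Submodule.span_le]
        rintro _ ⟨i, rfl⟩
        have e : castVec (Pi.single i 1 : IVec) = Pi.basisFun ℝ (Fin (n + 1)) i :=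
          funext fun j => by rcases eq_or_ne j i with rfl | hj <;> simp [castVec, *]
        exact e ▸ h _
      have h1 : Module.finrank ℝ S ≤ m :=
        (finrank_range_le_card (castVec ∘ v)).trans_eq (Fintype.card_fin m)
      rw [htop, finrank_top, Module.finrank_fin_fun] at h1
      omega
    set T := (finite_ival_le hP (ival P w₀)).toFinset.filter fun w => castVec w ∉ S
    obtain ⟨u, hu, humin⟩ := T.exists_min_image (ival P)
      ⟨w₀, Finset.mem_filter.2 ⟨(Set.Finite.mem_toFinset _).2 (le_refl (ival P w₀)), hw₀⟩⟩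
    have huS := (Finset.mem_filter.1 hu).2
    have hu' : ∀ w : IVec, castVec w ∉ S → ival P u ≤ ival P w := fun w hw => by
      by_cases h : ival P w ≤ ival P w₀
      · exact humin w (Finset.mem_filter.2 ⟨(Set.Finite.mem_toFinset _).2 h, hw⟩)
      · exact ((Set.Finite.mem_toFinset _).1 (Finset.mem_filter.1 hu).1).trans (not_le.1 h).le
    refine ⟨Fin.snoc v u, ?_, fun k w hw => ?_⟩
    · rw [Fin.comp_snoc]
      exact linearIndependent_finSnoc.2 ⟨hv, huS⟩
    · induction k using Fin.lastCases with
      | last =>
        rw [Fin.snoc_last]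
        refine hu' w fun h => hw (Submodule.span_mono ?_ h)
        rintro _ ⟨j, rfl⟩
        exact ⟨j.castSucc, Fin.castSucc_lt_last j, by simp⟩
      | cast k =>
        rw [Fin.snoc_castSucc]
        refine hmin k w fun h => hw (Submodule.span_mono ?_ h)
        rintro _ ⟨j, hj, rfl⟩
        exact ⟨j.castSucc, Fin.castSucc_lt_castSucc_iff.2 hj, by simp⟩

theorem exists_minimaFamily {P : Mat} (hP : P.PosDef) :
    ∃ v : Fin (n + 1) → IVec, IsMinimaFamily P v := by
  obtain ⟨v, hv, hmin⟩ := exists_partial_family hP (n + 1) le_rfl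
  refine ⟨v, hv, fun i j hij => hmin i (v j) ?_, hmin⟩
  exact hv.notMem_span_image fun h : j < i => hij.not_gt h

theorem succMin_eq {P : Mat} {v : Fin (n + 1) → IVec}
    (hv : IsMinimaFamily P v) (k : Fin (n + 1)) : succMin P k = ival P (v k) := by
  refine IsLeast.csInf_eq ⟨⟨v ∘ Fin.castLE k.2, hv.1.comp _ (Fin.castLE_injective _),
    fun j => hv.2.1 (Fin.le_def.2 (Nat.le_of_lt_succ j.2))⟩, ?_⟩
  rintro r ⟨u, hu, hr⟩
  by_contra! h
  set S := Submodule.span ℝ ((castVec ∘ v) '' {j | j < k})
  have hmem : Submodule.span ℝ (Set.range (castVec ∘ u)) ≤ S := by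
    rw [Submodule.span_le]
    rintro _ ⟨j, rfl⟩
    by_contra hj
    exact ((hv.2.2 k (u j) hj).trans (hr j)).not_gt h
  have h1 := Submodule.finrank_mono hmem
  rw [finrank_span_eq_card hu, Fintype.card_fin] at h1
  have h2 : Module.finrank ℝ S ≤ k.1 := by
    have e : (castVec ∘ v) '' {j | j < k} =
        Set.range ((castVec ∘ v) ∘ Fin.castLE k.2.le) := by
      ext x
      refine ⟨?_, ?_⟩
      · rintro ⟨j, hj, rfl⟩
        exact ⟨⟨j.1, hj⟩, rfl⟩
      · rintro ⟨j, rfl⟩
        exact ⟨_, Fin.lt_def.2 j.2, rfl⟩
    show Module.finrank ℝ (Submodule.span ℝ ((castVec ∘ v) '' {j | j < k})) ≤ k.1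
    rw [e]
    exact (finrank_range_le_card _).trans_eq (Fintype.card_fin _)
  omega

/-- The minima are attained at independent vectors, increase and begin at the least value. -/
theorem succMin_attained {P : Mat} (hP : P.PosDef) :
    (∃ v : Fin (n + 1) → IVec, LinearIndependent ℝ (castVec ∘ v) ∧
      ∀ k, ival P (v k) = succMin P k) ∧ Monotone (succMin P) ∧
      succMin P 0 = minVal P ∧ ∀ k, 0 < succMin P k := by
  obtain ⟨v, hv⟩ := exists_minimaFamily hP
  have h0 : ∀ k, v k ≠ 0 := fun k h => hv.1.ne_zero k (by
    funext i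
    simp [castVec, h])
  refine ⟨⟨v, hv.1, fun k => (succMin_eq hv k).symm⟩, fun i j hij => ?_, ?_,
    fun k => succMin_eq hv k ▸ ival_pos hP (h0 k)⟩
  · rw [succMin_eq hv i, succMin_eq hv j]
    exact hv.2.1 hij
  · rw [succMin_eq hv 0]
    refine le_antisymm (le_minVal fun w hw => hv.2.2 0 w ?_) (minVal_le hP (h0 0))
    simp only [Fin.not_lt_zero, Set.ofPred_false, Set.image_empty, Submodule.span_empty,
      Submodule.mem_bot]
    exact fun h => hw (funext fun i => by simpa [castVec] using congrFun h i)

/-- A positive matrix as a sum of squares, the `i`-th free of the coordinates before `i`. -/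
theorem exists_upper {m : ℕ} {G : Matrix (Fin m) (Fin m) ℝ} (hG : G.PosDef) :
    ∃ (d : Fin m → ℝ) (T : Matrix (Fin m) (Fin m) ℝ), (∀ i, 0 < d i) ∧
      T.BlockTriangular id ∧ IsUnit T.det ∧ G = Tᵀ * diagonal d * T := by
  have hL : (LDL.lowerInv hG).BlockTriangular OrderDual.toDual := fun i j h =>
    LDL.lowerInv_triangular hG h
  have hu : IsUnit (LDL.lowerInv hG).det :=
    (isUnit_iff_isUnit_det _).1 (isUnit_of_invertible _)
  have hlt : (LDL.lower hG).BlockTriangular OrderDual.toDual :=
    blockTriangular_inv_of_blockTriangular hL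
  refine ⟨LDL.diagEntries hG, (LDL.lower hG)ᵀ, ?_, fun i j h => hlt h, ?_, ?_⟩
  · have h : (LDL.diag hG).PosDef := by
      rw [LDL.diag_eq_lowerInv_conj]
      exact hG.mul_mul_conjTranspose_same
        (vecMul_injective_of_isUnit ((isUnit_iff_isUnit_det _).2 hu))
    exact posDef_diagonal_iff.1 h
  · rw [det_transpose]
    exact isUnit_nonsing_inv_det _ hu
  · rw [transpose_transpose, ← conjTranspose_eq_transpose_of_trivial]
    exact (LDL.lower_conj_diag hG).symm

/-- **Minkowski's theorem on the successive minima.** -/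
theorem prod_succMin_bounds {P : Mat} (hP : P.PosDef) {c : ℝ}
    (hc : ∀ Q : Mat, Q.PosDef → hermiteInv Q ≤ c) :
    P.det ≤ ∏ k, succMin P k ∧ ∏ k, succMin P k ≤ c * P.det := by
  classical
  obtain ⟨v, hv⟩ := exists_minimaFamily hP
  set lam := fun k => succMin P k
  have hlam : ∀ k, 0 < lam k := (succMin_attained hP).2.2.2
  set V : Matrix (Fin (n + 1)) (Fin (n + 1)) ℤ := Matrix.of fun i j => v j i
  have hVu : IsUnit (toReal V).det := by
    rw [← det_transpose]
    exact (isUnit_iff_isUnit_det _).1 (linearIndependent_rows_iff_isUnit.1 hv.1)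
  obtain ⟨d, T, hd, hT, hTu, hG⟩ := exists_upper (G := (toReal V)ᵀ * P * toReal V) (by
    rw [← conjTranspose_eq_transpose_of_trivial]
    exact hP.conjTranspose_mul_mul_same (mulVec_injective_of_isUnit_det hVu))
  have hTdet : T.det = ∏ k, T k k := det_of_isUpperTriangular hT
  have hdetG : (toReal V).det ^ 2 * P.det = ∏ k, d k * T k k ^ 2 := by
    have h := congrArg Matrix.det hG
    simp only [det_mul, det_transpose, det_diagonal] at h
    rw [Finset.prod_mul_distrib, Finset.prod_pow, ← hTdet]
    linear_combination h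
  refine ⟨?_, ?_⟩
  · -- the squares give the lower bound
    have hk : ∀ k, d k * T k k ^ 2 ≤ lam k := fun k => by
      have e : lam k = ∑ i, d i * T i k ^ 2 := by
        show succMin P k = _
        rw [succMin_eq hv, show ival P (v k) = quad P fun i => toReal V i k from rfl,
          ← diag_congr P (toReal V) k, hG, diag_congr, quad, dotProduct]
        exact Finset.sum_congr rfl fun i _ => by rw [mulVec_diagonal]; ring
      rw [e]
      exact Finset.single_le_sum (f := fun i => d i * T i k ^ 2)
        (fun i _ => mul_nonneg (hd i).le (sq_nonneg _)) (Finset.mem_univ k)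
    refine le_trans ?_ ((hdetG.trans_le (Finset.prod_le_prod (fun k _ =>
      mul_nonneg (hd k).le (sq_nonneg _)) fun k _ => hk k)))
    refine le_mul_of_one_le_left hP.det_pos.le ?_
    rw [det_toReal]
    have hV0 : V.det ≠ 0 := fun h => hVu.ne_zero (by rw [det_toReal, h, Int.cast_zero])
    exact_mod_cast (show (1 : ℤ) ≤ V.det ^ 2 from pow_two_pos_of_ne_zero hV0)
  · -- divide the squares by the minima
    set S := T * (toReal V)⁻¹
    have hSu : IsUnit S.det := by
      rw [det_mul]
      exact hTu.mul (isUnit_nonsing_inv_det _ hVu)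
    have hPS : P = Sᵀ * diagonal d * S := by
      rw [show Sᵀ * diagonal d * S =
        ((toReal V)⁻¹)ᵀ * (Tᵀ * diagonal d * T) * (toReal V)⁻¹ by
          simp only [S, transpose_mul, Matrix.mul_assoc], ← hG,
        show ((toReal V)⁻¹)ᵀ * ((toReal V)ᵀ * P * toReal V) * (toReal V)⁻¹ =
          (toReal V * (toReal V)⁻¹)ᵀ * P * (toReal V * (toReal V)⁻¹) by
          simp only [transpose_mul, Matrix.mul_assoc], mul_nonsing_inv _ hVu]
      simp
    set Q := Sᵀ * diagonal (fun k => d k / lam k) * S
    have hQ : Q.PosDef := by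
      simp only [Q]
      rw [← conjTranspose_eq_transpose_of_trivial]
      exact (posDef_diagonal_iff.2 fun k => div_pos (hd k) (hlam k)).conjTranspose_mul_mul_same
        (mulVec_injective_of_isUnit_det hSu)
    have hdetQ : Q.det * ∏ k, lam k = P.det := by
      rw [hPS]
      simp only [Q, det_mul, det_diagonal, Finset.prod_div_distrib]
      have := (Finset.prod_pos fun k (_ : k ∈ Finset.univ) => hlam k).ne'
      field_simp
    have hmin : 1 ≤ minVal Q := le_minVal fun w hw => by
      set e := (toReal V)⁻¹ *ᵥ castVec w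
      have hwe : toReal V *ᵥ e = castVec w := by
        rw [mulVec_mulVec, mul_nonsing_inv _ hVu, one_mulVec]
      obtain ⟨i₀, hi₀⟩ : ∃ i, e i ≠ 0 := by
        by_contra! h
        refine hw (funext fun i => ?_)
        have := congrFun hwe i
        rw [show e = 0 from funext h, mulVec_zero] at this
        exact Int.cast_eq_zero.1 this.symm
      obtain ⟨k, hk, hkmax⟩ := (Finset.univ.filter fun i => e i ≠ 0).exists_max_image id
        ⟨i₀, by simpa using hi₀⟩
      have hek : e k ≠ 0 := (Finset.mem_filter.1 hk).2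
      have hval : lam k ≤ ival P w := by
        show succMin P k ≤ _
        rw [succMin_eq hv]
        refine hv.2.2 k w fun hmem => hek ?_
        refine LinearMap.mem_ker.1 (Submodule.span_le.2 ?_ hmem :
          castVec w ∈ LinearMap.ker ((LinearMap.proj k).comp ((toReal V)⁻¹).mulVecLin))
        rintro _ ⟨j, hj, rfl⟩
        have e1 : (castVec ∘ v) j = toReal V *ᵥ Pi.single j 1 := by
          ext i
          simp [castVec, V, toReal]
        show ((toReal V)⁻¹ *ᵥ (castVec ∘ v) j) k = 0
        rw [e1, mulVec_mulVec, nonsing_inv_mul _ hVu, one_mulVec,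
          Pi.single_eq_of_ne (ne_of_gt hj)]
      have hSe : S *ᵥ castVec w = T *ᵥ e := (mulVec_mulVec _ _ _).symm
      have hzero : ∀ i, k < i → (T *ᵥ e) i = 0 := fun i hi => by
        simp only [mulVec, dotProduct]
        refine Finset.sum_eq_zero fun j _ => ?_
        by_cases hj : e j = 0
        · simp [hj]
        · have : j ≤ k := hkmax j (Finset.mem_filter.2 ⟨Finset.mem_univ j, hj⟩)
          simp [hT (show id j < id i from this.trans_lt hi)]
      have hvalP : ival P w = ∑ i, d i * (T *ᵥ e) i ^ 2 := by
        rw [show ival P w = quad P (castVec w) from rfl, hPS, quad_congr, hSe, quad,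
          dotProduct_diag]
        rfl
      have hvalQ : ival Q w = ∑ i, d i / lam i * (T *ᵥ e) i ^ 2 := by
        rw [show ival Q w = quad Q (castVec w) from rfl, quad_congr, hSe, quad, dotProduct_diag]
        rfl
      rw [hvalQ]
      refine le_trans ?_ (Finset.sum_le_sum (f := fun i => d i * (T *ᵥ e) i ^ 2 / lam k)
        fun i _ => ?_)
      · rw [← Finset.sum_div, ← hvalP, one_le_div (hlam k)]
        exact hval
      · rcases le_or_gt i k with hik | hik
        · rw [div_mul_eq_mul_div]
          exact div_le_div_of_nonneg_left (mul_nonneg (hd i).le (sq_nonneg _)) (hlam i)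
            ((succMin_attained hP).2.1 hik)
        · simp [hzero i hik]
    have h1 : 1 ≤ c * Q.det :=
      (one_le_pow₀ hmin).trans ((div_le_iff₀ hQ.det_pos).1 (hc Q hQ))
    calc ∏ k, lam k ≤ c * Q.det * ∏ k, lam k :=
          le_mul_of_one_le_left (Finset.prod_nonneg fun k _ => (hlam k).le) h1
      _ = c * P.det := by rw [mul_assoc, hdetQ]

end FA.Perfect

end
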