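import Fermat.Agent.OrthogonalUnits.Generators
import Mathlib.Analysis.SpecialFunctions.ExpDeriv
import Mathlib.Algebra.Order.Chebyshev

/-!
# Minimal vectors and the determinant near a form

The minimal vectors of a positive form, its behaviour under small changes, and the determinant of
`P + t H` by the eigenvalues of `H` relative to `P`.
-/

set_option autoImplicit false
set_option linter.style.haveILetI false

noncomputable section

open Matrix FA.Reduction FA.UnitsOrders FA.OrthogonalUnits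

namespace FA.Perfect

variable {n : ℕ}

local notation "Mat" => Matrix (Fin (n + 1)) (Fin (n + 1)) ℝ
local notation "IVec" => Fin (n + 1) → ℤ

/-- The value at an integral vector. -/
def ival {m : ℕ} (P : Matrix (Fin m) (Fin m) ℝ) (v : Fin m → ℤ) : ℝ :=
  quad P fun i => (v i : ℝ)

theorem ival_add {m : ℕ} (P H : Matrix (Fin m) (Fin m) ℝ) (v : Fin m → ℤ) :
    ival (P + H) v = ival P v + ival H v := by
  simp [ival, quad, add_mulVec, dotProduct_add]

theorem ival_smul {m : ℕ} (P : Matrix (Fin m) (Fin m) ℝ) (c : ℝ) (v : Fin m → ℤ) :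
    ival (c • P) v = c * ival P v := by
  simp [ival, quad, smul_mulVec, dotProduct_smul]

theorem ival_pos {m : ℕ} {P : Matrix (Fin m) (Fin m) ℝ} (hP : P.PosDef) {v : Fin m → ℤ}
    (hv : v ≠ 0) : 0 < ival P v :=
  (posDef_iff_quad.1 hP).2 _ fun h => hv (funext fun i => by simpa using congrFun h i)

/-- The minimal vectors. -/
def minVecs (P : Mat) : Set IVec := {v | v ≠ 0 ∧ ∀ w : IVec, w ≠ 0 → ival P v ≤ ival P w}

/-- The minimum at nonzero integral vectors. -/
def minVal (P : Mat) : ℝ := sInf (ival P '' {v | v ≠ 0})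

/-- The invariant of Hermite. -/
def hermiteInv (P : Mat) : ℝ := minVal P ^ (n + 1) / P.det

theorem minVecs_nonempty {P : Mat} (hP : P.PosDef) : (minVecs P).Nonempty :=
  let ⟨v, hv, h⟩ := exists_minimum hP
  ⟨v, hv, h⟩

theorem minVal_eq {P : Mat} {v : IVec} (hv : v ∈ minVecs P) : minVal P = ival P v := by
  refine IsLeast.csInf_eq ⟨⟨v, hv.1, rfl⟩, ?_⟩
  rintro _ ⟨w, hw, rfl⟩
  exact hv.2 w hw

theorem minVal_pos {P : Mat} (hP : P.PosDef) : 0 < minVal P := by
  obtain ⟨v, hv⟩ := minVecs_nonempty hP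
  exact minVal_eq hv ▸ ival_pos hP hv.1

theorem minVal_le {P : Mat} (hP : P.PosDef) {w : IVec} (hw : w ≠ 0) :
    minVal P ≤ ival P w := by
  obtain ⟨v, hv⟩ := minVecs_nonempty hP
  exact minVal_eq hv ▸ hv.2 w hw

theorem le_minVal {P : Mat} {a : ℝ} (h : ∀ w : IVec, w ≠ 0 → a ≤ ival P w) : a ≤ minVal P :=
  le_csInf ⟨_, Pi.single 0 1, by simp, rfl⟩ (by rintro _ ⟨w, hw, rfl⟩; exact h w hw)

theorem mem_minVecs_iff {P : Mat} (hP : P.PosDef) {v : IVec} :
    v ∈ minVecs P ↔ v ≠ 0 ∧ ival P v = minVal P :=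
  ⟨fun h => ⟨h.1, (minVal_eq h).symm⟩, fun h => ⟨h.1, fun _ hw => h.2 ▸ minVal_le hP hw⟩⟩

theorem posDef_smul {P : Mat} (hP : P.PosDef) {c : ℝ} (hc : 0 < c) : (c • P).PosDef := by
  obtain ⟨hs, hp⟩ := posDef_iff_quad.1 hP
  refine posDef_iff_quad.2 ⟨hs.smul c, fun x hx => ?_⟩
  simp only [quad, smul_mulVec, dotProduct_smul, smul_eq_mul]
  exact mul_pos hc (hp x hx)

theorem minVal_smul {P : Mat} (hP : P.PosDef) {c : ℝ} (hc : 0 < c) :
    minVal (c • P) = c * minVal P := by
  obtain ⟨v, hv⟩ := minVecs_nonempty hP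
  have h : v ∈ minVecs (c • P) := ⟨hv.1, fun w hw => by
    rw [ival_smul, ival_smul]
    exact mul_le_mul_of_nonneg_left (hv.2 w hw) hc.le⟩
  rw [minVal_eq h, minVal_eq hv, ival_smul]

theorem hermiteInv_smul {P : Mat} (hP : P.PosDef) {c : ℝ} (hc : 0 < c) :
    hermiteInv (c • P) = hermiteInv P := by
  rw [hermiteInv, hermiteInv, minVal_smul hP hc, det_smul, Fintype.card_fin, mul_pow,
    mul_div_mul_left _ _ (pow_ne_zero _ hc.ne')]

/-- A bound on the coordinates. -/
theorem sum_sq_le {m : ℕ} {P : Matrix (Fin m) (Fin m) ℝ} (hP : P.PosDef) (x : Fin m → ℝ) :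
    ∑ i, x i ^ 2 ≤ quad P x * P⁻¹.trace := by
  rw [Matrix.trace, Finset.mul_sum]
  exact Finset.sum_le_sum fun i _ => sq_le_quad_mul hP i x

theorem abs_quad_le {m : ℕ} {H : Matrix (Fin m) (Fin m) ℝ} {ε : ℝ} (hH : Small ε H)
    (x : Fin m → ℝ) : |quad H x| ≤ ε * (m * ∑ i, x i ^ 2) := by
  rcases isEmpty_or_nonempty (Fin m) with he | hne
  · simp [quad, dotProduct]
  obtain ⟨i₀⟩ := hne
  have hε : 0 ≤ ε := (abs_nonneg _).trans (hH i₀ i₀)
  calc |quad H x| ≤ ∑ i, ∑ j, ε * (|x i| * |x j|) := by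
        rw [quad, show x ⬝ᵥ (H *ᵥ x) = ∑ i, ∑ j, x i * (H i j * x j) from
          Finset.sum_congr rfl fun i _ => by simp only [mulVec, dotProduct, Finset.mul_sum]]
        refine (Finset.abs_sum_le_sum_abs _ _).trans (Finset.sum_le_sum fun i _ => ?_)
        refine (Finset.abs_sum_le_sum_abs _ _).trans (Finset.sum_le_sum fun j _ => ?_)
        rw [abs_mul, abs_mul, mul_left_comm]
        exact mul_le_mul_of_nonneg_right (hH i j) (by positivity)
    _ = ε * (∑ i, |x i|) ^ 2 := by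
        simp only [← Finset.mul_sum, sq, Finset.sum_mul]
    _ ≤ ε * (m * ∑ i, x i ^ 2) := by
        refine mul_le_mul_of_nonneg_left ?_ hε
        have := sq_sum_le_card_mul_sum_sq (s := Finset.univ) (f := fun i => |x i|)
        simpa [sq_abs] using this

theorem finite_ival_le {m : ℕ} {P : Matrix (Fin m) (Fin m) ℝ} (hP : P.PosDef) (C : ℝ) :
    {v : Fin m → ℤ | ival P v ≤ C}.Finite := by
  obtain ⟨N, hN⟩ := exists_nat_ge (C * P⁻¹.trace)
  refine (Set.Finite.pi (t := fun _ => Set.Icc (-(N : ℤ)) N) fun _ => Set.finite_Icc _ _).subset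
    fun v hv i _ => ?_
  have htr : (0 : ℝ) ≤ P⁻¹.trace := Finset.sum_nonneg fun i _ => hP.inv.diag_pos.le
  have h : ((v i : ℝ)) ^ 2 ≤ N := ((Finset.single_le_sum (f := fun i => (v i : ℝ) ^ 2)
    (fun i _ => sq_nonneg _) (Finset.mem_univ i)).trans (sum_sq_le hP _)).trans
    ((mul_le_mul_of_nonneg_right hv htr).trans hN)
  have h2 : v i ^ 2 ≤ (N : ℤ) := by exact_mod_cast h
  rw [Set.mem_Icc]
  constructor <;> nlinarith [Int.le_self_sq (v i), Int.le_self_sq (-v i)]

theorem minVecs_finite {P : Mat} (hP : P.PosDef) : (minVecs P).Finite :=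
  (finite_ival_le hP (minVal P)).subset fun _ hv => (minVal_eq hv).ge

/-- **The minimal vectors under a small change.** -/
theorem exists_near {P : Mat} (hP : P.PosDef) :
    ∃ δ : ℝ, 0 < δ ∧ ∀ H : Mat, H.IsSymm → Small δ H → (P + H).PosDef ∧
      (∀ w : IVec, w ≠ 0 → w ∉ minVecs P → minVal P ≤ ival (P + H) w) := by
  classical
  set m := minVal P
  have hm : 0 < m := minVal_pos hP
  set F := ((finite_ival_le hP (2 * m)).toFinset).filter fun w => w ≠ 0 ∧ w ∉ minVecs P
  obtain ⟨m', hm', hgap⟩ : ∃ m' : ℝ, m < m' ∧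
      ∀ w : IVec, w ≠ 0 → w ∉ minVecs P → m' ≤ ival P w := by
    have hlt : ∀ w : IVec, w ≠ 0 → w ∉ minVecs P → m < ival P w := fun w hw hw' =>
      (minVal_le hP hw).lt_of_ne fun h => hw' ((mem_minVecs_iff hP).2 ⟨hw, h.symm⟩)
    rcases F.eq_empty_or_nonempty with he | hne
    · refine ⟨2 * m, by linarith, fun w hw hw' => le_of_not_gt fun h => ?_⟩
      have : w ∈ F := Finset.mem_filter.2 ⟨(Set.Finite.mem_toFinset _).2 h.le, hw, hw'⟩
      rw [he] at this
      exact Finset.notMem_empty _ this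
    obtain ⟨w₀, hw₀, hmin⟩ := F.exists_min_image (ival P) hne
    refine ⟨min (2 * m) (ival P w₀), lt_min (by linarith)
      (hlt _ (Finset.mem_filter.1 hw₀).2.1 (Finset.mem_filter.1 hw₀).2.2), fun w hw hw' => ?_⟩
    by_cases h : ival P w ≤ 2 * m
    · exact (min_le_right _ _).trans
        (hmin w (Finset.mem_filter.2 ⟨(Set.Finite.mem_toFinset _).2 h, hw, hw'⟩))
    · exact (min_le_left _ _).trans (not_le.1 h).le
  set K := ((n + 1 : ℕ) : ℝ) * P⁻¹.trace
  have htr : 0 < P⁻¹.trace := Finset.sum_pos (fun i _ => hP.inv.diag_pos) Finset.univ_nonempty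
  have hK : 0 < K := mul_pos (by positivity) htr
  have ht : 0 < 1 - m / m' := by rw [sub_pos, div_lt_one (hm.trans hm')]; exact hm'
  refine ⟨(1 - m / m') / K, div_pos ht hK, fun H hHs hH => ?_⟩
  have hbd : ∀ x, |quad H x| ≤ (1 - m / m') * quad P x := fun x => by
    refine (abs_quad_le hH x).trans ?_
    have := mul_le_mul_of_nonneg_left (sum_sq_le hP x) (Nat.cast_nonneg (α := ℝ) (n + 1))
    calc _ ≤ (1 - m / m') / K * (((n + 1 : ℕ) : ℝ) * (quad P x * P⁻¹.trace)) :=
          mul_le_mul_of_nonneg_left this (div_pos ht hK).le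
      _ = (1 - m / m') / K * (K * quad P x) := by ring
      _ = (1 - m / m') * quad P x := by rw [← mul_assoc, div_mul_cancel₀ _ hK.ne']
  refine ⟨posDef_iff_quad.2 ⟨(posDef_iff_quad.1 hP).1.add hHs, fun x hx => ?_⟩, fun w hw hw' => ?_⟩
  · have h := (abs_le.1 (hbd x)).1
    have hq := (posDef_iff_quad.1 hP).2 x hx
    have e : quad (P + H) x = quad P x + quad H x := by simp [quad, add_mulVec, dotProduct_add]
    have : 0 < m / m' * quad P x := mul_pos (div_pos hm (hm.trans hm')) hq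
    linarith
  · rw [ival_add]
    have h : -((1 - m / m') * ival P w) ≤ ival H w := (abs_le.1 (hbd _)).1
    have h1 : m ≤ m / m' * ival P w := by
      rw [div_mul_eq_mul_div, le_div_iff₀ (hm.trans hm')]
      exact mul_le_mul_of_nonneg_left (hgap w hw hw') hm.le
    linarith

/-- **The determinant along a line.** -/
theorem exists_eigen {P : Mat} (hP : P.PosDef) {H : Mat} (hH : H.IsSymm) :
    ∃ ev : Fin (n + 1) → ℝ, (P + H).det = P.det * ∏ i, (1 + ev i) ∧
      (P⁻¹ * H).trace = ∑ i, ev i ∧ (P⁻¹ * H * (P⁻¹ * H)).trace = ∑ i, ev i ^ 2 ∧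
      ((P + H).PosDef → ∀ i, 0 < 1 + ev i) ∧ (H ≠ 0 → ev ≠ 0) := by
  obtain ⟨S, d, hS, hS', hPd, hd⟩ := exists_diagonal (posDef_iff_quad.1 hP).1 hP.det_pos.ne'
  have hdpos : ∀ i, 0 < d i := fun i => by
    have h := (posDef_iff_quad.1 hP).2 (Sᵀ *ᵥ Pi.single i 1) (fun h => by
      have h2 : (S * Sᵀ) *ᵥ Pi.single i (1 : ℝ) = 0 := by rw [← mulVec_mulVec, h, mulVec_zero]
      rw [hS', one_mulVec] at h2
      simpa using congrFun h2 i)
    rw [hPd, quad_congr, mulVec_mulVec, hS', one_mulVec, quad, dotProduct_diag, dval,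
      Finset.sum_eq_single i (fun j _ hj => by simp [hj]) (by simp)] at h
    simpa using h
  set B : Mat := diagonal (fun i => Real.sqrt (d i)) * S
  set C : Mat := Sᵀ * diagonal (fun i => (Real.sqrt (d i))⁻¹)
  have hBC : B * C = 1 := by
    rw [show B * C = diagonal (fun i => Real.sqrt (d i)) * (S * Sᵀ) *
      diagonal (fun i => (Real.sqrt (d i))⁻¹) by simp only [B, C, Matrix.mul_assoc], hS',
      Matrix.mul_one, diagonal_mul_diagonal, ← diagonal_one]
    exact congrArg _ (funext fun i => mul_inv_cancel₀ (Real.sqrt_pos.2 (hdpos i)).ne')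
  have hCB : C * B = 1 := mul_eq_one_comm.1 hBC
  have hBt : Bᵀ * B = P := by
    rw [hPd, show Bᵀ * B = Sᵀ * (diagonal (fun i => Real.sqrt (d i)) *
      diagonal (fun i => Real.sqrt (d i))) * S by
        simp only [B, transpose_mul, diagonal_transpose, Matrix.mul_assoc], diagonal_mul_diagonal]
    exact congrArg (fun v => Sᵀ * diagonal v * S) (funext fun i => Real.mul_self_sqrt (hdpos i).le)
  set H' : Mat := Cᵀ * H * C
  have hH' : H'.IsHermitian := by
    rw [IsHermitian, conjTranspose_eq_transpose_of_trivial]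
    simp only [H', transpose_mul, transpose_transpose, hH.eq, Matrix.mul_assoc]
  have hBH : H = Bᵀ * H' * B := by
    rw [show Bᵀ * H' * B = (C * B)ᵀ * H * (C * B) by
      simp only [H', transpose_mul, Matrix.mul_assoc], hCB, transpose_one, Matrix.one_mul,
      Matrix.mul_one]
  have hPinv : P⁻¹ = C * Cᵀ := Matrix.inv_eq_right_inv (by
    rw [← hBt, show Bᵀ * B * (C * Cᵀ) = Bᵀ * (B * C) * Cᵀ by simp only [Matrix.mul_assoc], hBC,
      Matrix.mul_one, ← transpose_mul, hCB, transpose_one])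
  set U : Mat := (hH'.eigenvectorUnitary : Mat)
  set ev := hH'.eigenvalues
  have hUU : Uᵀ * U = 1 := by
    rw [← conjTranspose_eq_transpose_of_trivial]
    exact Unitary.star_mul_self_of_mem hH'.eigenvectorUnitary.2
  have hspec : H' = U * diagonal ev * Uᵀ := by
    conv_lhs => rw [hH'.spectral_theorem]
    rw [Unitary.conjStarAlgAut_apply, star_eq_conjTranspose, conjTranspose_eq_transpose_of_trivial]
    rfl
  have htr : (P⁻¹ * H).trace = H'.trace := by
    rw [hPinv, Matrix.mul_assoc, trace_mul_comm]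
  have hUU' : U * Uᵀ = 1 := mul_eq_one_comm.1 hUU
  have hPH : P + H = (U ᵀ * B)ᵀ * diagonal (fun i => 1 + ev i) * (Uᵀ * B) := by
    rw [← diagonal_add, diagonal_one, Matrix.mul_add, Matrix.add_mul, Matrix.mul_one,
      show (Uᵀ * B)ᵀ * (Uᵀ * B) = Bᵀ * (U * Uᵀ) * B by
        simp only [transpose_mul, transpose_transpose, Matrix.mul_assoc], hUU', Matrix.mul_one,
      hBt, show (Uᵀ * B)ᵀ * diagonal ev * (Uᵀ * B) = Bᵀ * (U * diagonal ev * Uᵀ) * B by
        simp only [transpose_mul, transpose_transpose, Matrix.mul_assoc], ← hspec, ← hBH]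
  have hTu : (Uᵀ * B) * (C * U) = 1 := by
    rw [show Uᵀ * B * (C * U) = Uᵀ * (B * C) * U by simp only [Matrix.mul_assoc], hBC,
      Matrix.mul_one, hUU]
  refine ⟨ev, ?_, ?_, ?_, fun hpos i => ?_, fun hH0 h => hH0 ?_⟩
  · have h : (Uᵀ * B).det * (Uᵀ * B).det = P.det := by
      rw [← hBt]
      simp only [det_mul, det_transpose]
      have := congrArg Matrix.det hUU
      rw [det_mul, det_transpose, det_one] at this
      linear_combination B.det * B.det * this
    rw [hPH, det_mul, det_mul, det_transpose, det_diagonal, ← h]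
    ring
  · rw [htr, hH'.trace_eq_sum_eigenvalues]
    simp [ev]
  · rw [hPinv, show C * Cᵀ * H * (C * Cᵀ * H) = C * (Cᵀ * H * C * (Cᵀ * H)) by
      simp only [Matrix.mul_assoc], trace_mul_comm,
      show Cᵀ * H * C * (Cᵀ * H) * C = H' * H' by simp only [H', Matrix.mul_assoc], hspec,
      show U * diagonal ev * Uᵀ * (U * diagonal ev * Uᵀ) =
        U * (diagonal ev * (Uᵀ * U) * diagonal ev) * Uᵀ by simp only [Matrix.mul_assoc], hUU,
      Matrix.mul_one, trace_mul_comm, ← Matrix.mul_assoc, hUU, Matrix.one_mul,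
      diagonal_mul_diagonal, trace_diagonal]
    simp [sq]
  · have hx : (C * U) *ᵥ Pi.single i 1 ≠ 0 := fun h => by
      have h2 : (Uᵀ * B * (C * U)) *ᵥ Pi.single i (1 : ℝ) = 0 := by
        rw [← mulVec_mulVec, h, mulVec_zero]
      rw [hTu, one_mulVec] at h2
      simpa using congrFun h2 i
    have h := (posDef_iff_quad.1 hpos).2 _ hx
    rw [hPH, quad_congr, mulVec_mulVec, hTu, one_mulVec, quad, dotProduct_diag, dval,
      Finset.sum_eq_single i (fun j _ hj => by simp [hj]) (by simp)] at h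
    simpa using h
  · rw [hBH, hspec, h]
    simp

end FA.Perfect

end
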