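import Fermat.Agent.Perfect.Basic

/-!
# Voronoi's theorem on extreme forms

A form is extreme iff no change increases all minimal values without increasing the first variation
of the determinant; minimising an exponential gives from this the coefficients of eutaxy.
-/

set_option autoImplicit false
set_option linter.style.haveILetI false

noncomputable section

open Matrix FA.Reduction FA.UnitsOrders FA.OrthogonalUnits

namespace FA.Perfect

variable {n : ℕ}

local notation "Mat" => Matrix (Fin (n + 1)) (Fin (n + 1)) ℝ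
local notation "IVec" => Fin (n + 1) → ℤ

/-- A perfect form is determined by its minimal vectors and their value. -/
def IsPerfect (P : Mat) : Prop :=
  ∀ H : Mat, H.IsSymm → (∀ v ∈ minVecs P, ival H v = 0) → H = 0

/-- The inverse is a positive combination of the squares of the minimal vectors. -/
def IsEutactic (P : Mat) : Prop :=
  ∃ F : Finset IVec, (F : Set IVec) = minVecs P ∧ ∃ c : IVec → ℝ, (∀ v ∈ F, 0 < c v) ∧
    P⁻¹ = ∑ v ∈ F, c v • vecMulVec (fun i => (v i : ℝ)) (fun i => (v i : ℝ))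

/-- A local maximum of the invariant of Hermite. -/
def IsExtreme (P : Mat) : Prop :=
  ∃ δ : ℝ, 0 < δ ∧ ∀ H : Mat, H.IsSymm → Small δ H → hermiteInv (P + H) ≤ hermiteInv P

/-- A strict local maximum, up to scaling. -/
def IsStrictlyExtreme (P : Mat) : Prop :=
  ∃ δ : ℝ, 0 < δ ∧ ∀ H : Mat, H.IsSymm → Small δ H → hermiteInv P ≤ hermiteInv (P + H) →
    ∃ c : ℝ, 0 < c ∧ P + H = c • P

/-- No change increases the minimal values but not the determinant. -/
def NoImproving (P : Mat) : Prop :=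
  ∀ H : Mat, H.IsSymm → (∀ v ∈ minVecs P, 0 ≤ ival H v) → (P⁻¹ * H).trace ≤ 0 → H = 0

/-- The sum of the absolute values of the entries. -/
def absSum (H : Mat) : ℝ := ∑ i, ∑ j, |H i j|

theorem absSum_nonneg (H : Mat) : 0 ≤ absSum H :=
  Finset.sum_nonneg fun _ _ => Finset.sum_nonneg fun _ _ => abs_nonneg _

theorem small_absSum (H : Mat) : Small (absSum H) H := fun i j =>
  (Finset.single_le_sum (f := fun j => |H i j|) (fun _ _ => abs_nonneg _)
    (Finset.mem_univ j)).trans (Finset.single_le_sum (f := fun i => ∑ j, |H i j|)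
      (fun _ _ => Finset.sum_nonneg fun _ _ => abs_nonneg _) (Finset.mem_univ i))

theorem absSum_smul (c : ℝ) (H : Mat) : absSum (c • H) = |c| * absSum H := by
  simp [absSum, abs_mul, Finset.mul_sum]

theorem absSum_eq_zero {H : Mat} (h : absSum H = 0) : H = 0 := by
  ext i j
  exact abs_nonpos_iff.1 ((small_absSum H i j).trans h.le)

theorem trace_vecMulVec_mul {m : ℕ} (H : Matrix (Fin m) (Fin m) ℝ) (x : Fin m → ℝ) :
    (vecMulVec x x * H).trace = quad H x := by
  rw [vecMulVec_mul, trace_vecMulVec, quad, dotProduct_mulVec, dotProduct_comm]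

/-- The determinant drops when the first variation is not positive. -/
theorem det_add_lt {P H : Mat} (hP : P.PosDef) (hPH : (P + H).PosDef) (hH : H.IsSymm)
    (hH0 : H ≠ 0) (htr : (P⁻¹ * H).trace ≤ 0) : (P + H).det < P.det := by
  obtain ⟨ev, hdet, htr', -, hpos, hne⟩ := exists_eigen hP hH
  obtain ⟨i, hi⟩ := Function.ne_iff.1 (hne hH0)
  have h1 : ∏ j, (1 + ev j) < ∏ j, Real.exp (ev j) :=
    Finset.prod_lt_prod (fun j _ => hpos hPH j) (fun j _ => by
      linarith [Real.add_one_le_exp (ev j)]) ⟨i, Finset.mem_univ i, by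
      linarith [Real.add_one_lt_exp (show ev i ≠ 0 from hi)]⟩
  rw [← Real.exp_sum, ← htr'] at h1
  rw [hdet]
  exact mul_lt_of_lt_one_right hP.det_pos (h1.trans_le (Real.exp_le_one_iff.2 htr))

theorem noImproving_of_extreme {P : Mat} (hP : P.PosDef) (h : IsExtreme P) : NoImproving P := by
  intro H hH hv htr
  by_contra hH0
  obtain ⟨δ, hδ, hmax⟩ := h
  obtain ⟨δ', hδ', hnear⟩ := exists_near hP
  set t := min δ δ' / (absSum H + 1)
  have hN := absSum_nonneg H
  have ht : 0 < t := div_pos (lt_min hδ hδ') (by linarith)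
  have hsmall : Small (min δ δ') (t • H) := fun i j => by
    rw [Matrix.smul_apply, smul_eq_mul, abs_mul, abs_of_pos ht]
    refine (mul_le_mul_of_nonneg_left ((small_absSum H i j).trans (le_add_of_nonneg_right
      zero_le_one)) ht.le).trans_eq (div_mul_cancel₀ _ (by linarith))
  obtain ⟨hpd, hout⟩ := hnear (t • H) (hH.smul t) (hsmall.mono (min_le_right _ _))
  have hmin : minVal P ≤ minVal (P + t • H) := le_minVal fun w hw => by
    by_cases hw' : w ∈ minVecs P
    · rw [ival_add, ival_smul, ← minVal_eq hw']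
      exact le_add_of_nonneg_right (mul_nonneg ht.le (hv w hw'))
    · exact hout w hw hw'
  have hdet := det_add_lt hP hpd (hH.smul t) (smul_ne_zero ht.ne' hH0)
    (by rw [Matrix.mul_smul, trace_smul, smul_eq_mul]
        exact mul_nonpos_of_nonneg_of_nonpos ht.le htr)
  refine (hmax (t • H) (hH.smul t) (hsmall.mono (min_le_left _ _))).not_gt ?_
  have hm := minVal_pos hP
  exact (div_lt_div_of_pos_left (pow_pos hm _) hpd.det_pos hdet).trans_le
    (div_le_div_of_nonneg_right (pow_le_pow_left₀ hm.le hmin _) hpd.det_pos.le)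

theorem isClosed_symm_pos (P : Mat) :
    IsClosed {H : Mat | H.IsSymm ∧ ∀ v ∈ minVecs P, 0 ≤ ival H v} := by
  simp only [Set.ofPred_and, Matrix.IsSymm]
  refine (isClosed_eq (by fun_prop) continuous_id).inter ?_
  simp only [Set.ofPred_forall]
  exact isClosed_biInter fun v _ =>
    isClosed_le continuous_const (by unfold ival quad; fun_prop)

theorem continuous_absSum : Continuous (absSum : Mat → ℝ) := by
  unfold absSum
  exact continuous_finsetSum _ fun i _ => continuous_finsetSum _ fun j _ =>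
    ((continuous_apply j).comp (continuous_apply i)).abs

theorem isCompact_small (R : ℝ) : IsCompact {H : Mat | Small R H} := by
  have e : {H : Mat | Small R H} = Set.univ.pi fun _ => Set.univ.pi fun _ => Set.Icc (-R) R := by
    exact Set.ext fun H => ⟨fun h i _ j _ => abs_le.1 (h i j),
      fun h i j => abs_le.2 (h i trivial j trivial)⟩
  rw [e]
  exact isCompact_univ_pi fun _ => isCompact_univ_pi fun _ => isCompact_Icc

theorem exists_trace_bound {P : Mat} (hE : NoImproving P) :
    ∃ δ : ℝ, 0 < δ ∧ ∀ H : Mat, H.IsSymm → (∀ v ∈ minVecs P, 0 ≤ ival H v) →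
      δ * absSum H ≤ (P⁻¹ * H).trace := by
  set U := {H : Mat | Small 1 H} ∩ ({H : Mat | absSum H = 1} ∩
    {H : Mat | H.IsSymm ∧ ∀ v ∈ minVecs P, 0 ≤ ival H v})
  have hU : IsCompact U := (isCompact_small 1).inter_right
    ((isClosed_eq continuous_absSum continuous_const).inter (isClosed_symm_pos P))
  have hscale : ∀ H : Mat, H.IsSymm → (∀ v ∈ minVecs P, 0 ≤ ival H v) → H ≠ 0 →
      (absSum H)⁻¹ • H ∈ U := fun H hH hv hH0 => by
    have hN : 0 < absSum H := (absSum_nonneg H).lt_of_ne fun h => hH0 (absSum_eq_zero h.symm)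
    have h1 : absSum ((absSum H)⁻¹ • H) = 1 := by
      rw [absSum_smul, abs_inv, abs_of_pos hN, inv_mul_cancel₀ hN.ne']
    refine ⟨h1 ▸ small_absSum _, h1, hH.smul _, fun v hvm => ?_⟩
    rw [ival_smul]
    exact mul_nonneg (inv_pos.2 hN).le (hv v hvm)
  rcases U.eq_empty_or_nonempty with he | hne
  · refine ⟨1, one_pos, fun H hH hv => ?_⟩
    by_cases hH0 : H = 0
    · simp [hH0, absSum]
    · have := hscale H hH hv hH0
      rw [he] at this
      exact this.elim
  obtain ⟨H₀, hH₀, hmin⟩ :=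
    hU.exists_isMinOn hne (f := fun H => (P⁻¹ * H).trace) (by fun_prop)
  have hpos : 0 < (P⁻¹ * H₀).trace := lt_of_not_ge fun h => by
    have h1 : absSum H₀ = 1 := hH₀.2.1
    rw [hE H₀ hH₀.2.2.1 hH₀.2.2.2 h] at h1
    simp [absSum] at h1
  refine ⟨_, hpos, fun H hH hv => ?_⟩
  by_cases hH0 : H = 0
  · simp [hH0, absSum]
  have hN : 0 < absSum H := (absSum_nonneg H).lt_of_ne fun h => hH0 (absSum_eq_zero h.symm)
  have h : (P⁻¹ * H₀).trace ≤ (P⁻¹ * ((absSum H)⁻¹ • H)).trace := hmin (hscale H hH hv hH0)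
  rw [Matrix.mul_smul, trace_smul, smul_eq_mul, inv_mul_eq_div, le_div_iff₀ hN] at h
  exact h

theorem exp_sub_le {x : ℝ} (hx : |x| ≤ 1 / 5) : Real.exp (x - 2 * x ^ 2) ≤ 1 + x := by
  obtain ⟨h1, h2⟩ := abs_le.1 hx
  have hy : |x - 2 * x ^ 2| ≤ 1 := abs_le.2 ⟨by nlinarith, by nlinarith⟩
  have h := (abs_le.1 (Real.abs_exp_sub_one_sub_id_le hy)).2
  nlinarith [sq_nonneg x,
    mul_nonneg (sq_nonneg x) (show (0 : ℝ) ≤ 1 + 4 * x - 4 * x ^ 2 by nlinarith)]

/-- The determinant rises along small changes keeping the minimum. -/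
theorem exists_det_rise {P : Mat} (hP : P.PosDef) (hE : NoImproving P) :
    ∃ ρ : ℝ, 0 < ρ ∧ ∀ H : Mat, H.IsSymm → (∀ v ∈ minVecs P, 0 ≤ ival H v) → absSum H ≤ ρ →
      H ≠ 0 → P.det < (P + H).det := by
  obtain ⟨δ, hδ, hbd⟩ := exists_trace_bound hE
  set k : ℝ := ((n + 1 : ℕ) : ℝ)
  set K : ℝ := k * (k * (k * absSum P⁻¹) * (k * absSum P⁻¹)) + 1
  have hK : 0 < K := by
    have := absSum_nonneg (P⁻¹ : Mat)
    positivity
  refine ⟨min (δ / (3 * K)) (1 / (5 * K)), lt_min (by positivity) (by positivity),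
    fun H hH hv hN hH0 => ?_⟩
  obtain ⟨ev, hdet, htr, htr2, -, -⟩ := exists_eigen hP hH
  have hNpos : 0 < absSum H := (absSum_nonneg H).lt_of_ne fun h => hH0 (absSum_eq_zero h.symm)
  have hsq : ∑ i, ev i ^ 2 ≤ K * absSum H ^ 2 := by
    rw [← htr2]
    have h := (small_absSum (P⁻¹ : Mat)).mul (small_absSum H)
    have h2 := h.mul h
    calc (P⁻¹ * H * (P⁻¹ * H)).trace
        ≤ ∑ _i : Fin (n + 1), k * (k * (absSum (P⁻¹ : Mat) * absSum H) *
            (k * (absSum (P⁻¹ : Mat) * absSum H))) :=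
          Finset.sum_le_sum fun i _ => (le_abs_self _).trans (h2 i i)
      _ = k * (k * (k * absSum (P⁻¹ : Mat)) * (k * absSum (P⁻¹ : Mat))) * absSum H ^ 2 := by
          rw [Finset.sum_const, Finset.card_univ, Fintype.card_fin, nsmul_eq_mul]
          ring
      _ ≤ _ := mul_le_mul_of_nonneg_right (by linarith [le_refl K]) (sq_nonneg _)
  have hK1 : 1 ≤ K := le_add_of_nonneg_left (by
    have := absSum_nonneg (P⁻¹ : Mat)
    positivity)
  have h5 : K * absSum H ≤ 1 / 5 := by
    have := hN.trans (min_le_right _ _)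
    rw [le_div_iff₀ (by positivity)] at this
    linarith
  have h3 : 3 * (K * absSum H) ≤ δ := by
    have := hN.trans (min_le_left _ _)
    rw [le_div_iff₀ (by positivity)] at this
    linarith
  have hev : ∀ i, |ev i| ≤ 1 / 5 := fun i => by
    have h := (Finset.single_le_sum (f := fun i => ev i ^ 2) (fun i _ => sq_nonneg _)
      (Finset.mem_univ i)).trans hsq
    have h' : ev i ^ 2 ≤ (1 / 5) ^ 2 := h.trans (by nlinarith)
    rw [← sq_abs] at h'
    exact le_of_pow_le_pow_left₀ two_ne_zero (by norm_num) h'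
  have hexp : Real.exp (∑ i, (ev i - 2 * ev i ^ 2)) ≤ ∏ i, (1 + ev i) := by
    rw [Real.exp_sum]
    exact Finset.prod_le_prod (fun i _ => (Real.exp_pos _).le) fun i _ => exp_sub_le (hev i)
  have hpos : 0 < ∑ i, (ev i - 2 * ev i ^ 2) := by
    rw [Finset.sum_sub_distrib, ← Finset.mul_sum, ← htr]
    have := hbd H hH hv
    nlinarith
  rw [hdet]
  exact lt_mul_of_one_lt_right hP.det_pos ((Real.one_lt_exp_iff.2 hpos).trans_le hexp)

theorem strictlyExtreme_of_noImproving {P : Mat} (hP : P.PosDef) (hE : NoImproving P) :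
    IsStrictlyExtreme P := by
  classical
  obtain ⟨ρ, hρ, hrise⟩ := exists_det_rise hP hE
  obtain ⟨δ₁, hδ₁, hnear⟩ := exists_near hP
  set m := minVal P
  have hm : 0 < m := minVal_pos hP
  set L : ℝ := 1 + ∑ v ∈ (minVecs_finite hP).toFinset, ((n + 1 : ℕ) : ℝ) * ∑ i, (v i : ℝ) ^ 2
  have hL : 0 < L := by
    have : 0 ≤ ∑ v ∈ (minVecs_finite hP).toFinset, ((n + 1 : ℕ) : ℝ) * ∑ i, (v i : ℝ) ^ 2 :=
      Finset.sum_nonneg fun _ _ => by positivity
    linarith
  set M : ℝ := 1 + ((n + 1 : ℕ) : ℝ) ^ 2 * (2 + 2 * L / m * absSum P)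
  have hM : 0 < M := by
    have := absSum_nonneg P
    positivity
  refine ⟨min δ₁ (min (m / (2 * L)) (ρ / M)), by positivity, fun H hH hsmall hge => ?_⟩
  set ε := min δ₁ (min (m / (2 * L)) (ρ / M))
  have hεL : ε * L ≤ m / 2 := by
    have h : ε ≤ m / (2 * L) := (min_le_right _ _).trans (min_le_left _ _)
    rw [le_div_iff₀ (by positivity)] at h
    linarith
  have hε : 0 ≤ ε := (abs_nonneg _).trans (hsmall 0 0)
  obtain ⟨hpd, hout⟩ := hnear H hH (hsmall.mono (min_le_left _ _))
  have hh : ∀ v ∈ minVecs P, |ival H v| ≤ ε * L := fun v hv => by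
    refine (abs_quad_le hsmall _).trans (mul_le_mul_of_nonneg_left ?_ hε)
    exact (Finset.single_le_sum
      (f := fun v : IVec => ((n + 1 : ℕ) : ℝ) * ∑ i, (v i : ℝ) ^ 2) (fun _ _ => by positivity)
      ((minVecs_finite hP).mem_toFinset.2 hv)).trans (le_add_of_nonneg_left zero_le_one)
  set μ := minVal (P + H)
  have hlo : m - ε * L ≤ μ := le_minVal fun w hw => by
    by_cases hw' : w ∈ minVecs P
    · rw [ival_add, ← minVal_eq hw']
      linarith [(abs_le.1 (hh w hw')).1]
    · have := hout w hw hw'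
      linarith [mul_nonneg hε hL.le]
  have hup : μ ≤ m + ε * L := by
    obtain ⟨v, hv⟩ := minVecs_nonempty hP
    refine (minVal_le hpd hv.1).trans ?_
    rw [ival_add, ← minVal_eq hv]
    linarith [(abs_le.1 (hh v hv)).2]
  have hμ : 0 < μ := minVal_pos hpd
  set c := m / μ
  have hc : 0 < c := div_pos hm hμ
  have hc2 : c ≤ 2 := by rw [div_le_iff₀ hμ]; linarith
  have hc1 : |c - 1| ≤ 2 * L / m * ε := by
    rw [show c - 1 = (m - μ) / μ by simp only [c]; field_simp, abs_div, abs_of_pos hμ,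
      div_le_iff₀ hμ]
    have h1 : |m - μ| ≤ ε * L := abs_le.2 ⟨by linarith, by linarith⟩
    refine h1.trans ?_
    rw [show 2 * L / m * ε * μ = ε * L * (2 * μ / m) by ring]
    refine le_mul_of_one_le_right (mul_nonneg hε hL.le) ?_
    rw [one_le_div hm]
    linarith
  set H' := c • (P + H) - P
  have hH's : H'.IsSymm := (((posDef_iff_quad.1 hP).1.add hH).smul c).sub (posDef_iff_quad.1 hP).1
  have hN' : absSum H' ≤ ρ := by
    have hent : ∀ i j, |H' i j| ≤ ε * (2 + 2 * L / m * absSum P) := fun i j => by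
      rw [show H' i j = c * H i j + (c - 1) * P i j by
        simp [H', Matrix.sub_apply, Matrix.add_apply, Matrix.smul_apply]; ring]
      refine (abs_add_le _ _).trans ?_
      rw [abs_mul, abs_mul, abs_of_pos hc, mul_add]
      refine add_le_add ?_ ?_
      · rw [mul_comm ε]
        exact mul_le_mul hc2 (hsmall i j) (abs_nonneg _) two_pos.le
      · rw [show ε * (2 * L / m * absSum P) = 2 * L / m * ε * absSum P by ring]
        exact mul_le_mul hc1 (small_absSum P i j) (abs_nonneg _) ((abs_nonneg _).trans hc1)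
    calc absSum H' ≤ ∑ _i : Fin (n + 1), ∑ _j : Fin (n + 1),
          ε * (2 + 2 * L / m * absSum P) :=
          Finset.sum_le_sum fun i _ => Finset.sum_le_sum fun j _ => hent i j
      _ = ε * (((n + 1 : ℕ) : ℝ) ^ 2 * (2 + 2 * L / m * absSum P)) := by
          simp only [Finset.sum_const, Finset.card_univ, Fintype.card_fin, nsmul_eq_mul]
          ring
      _ ≤ ε * M := mul_le_mul_of_nonneg_left (le_add_of_nonneg_left zero_le_one) hε
      _ ≤ ρ := by
          have h : ε ≤ ρ / M := (min_le_right _ _).trans (min_le_right _ _)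
          rwa [le_div_iff₀ hM] at h
  have hmin' : minVal (c • (P + H)) = m := by
    rw [minVal_smul hpd hc]
    exact div_mul_cancel₀ m hμ.ne'
  have hpos' : ∀ v ∈ minVecs P, 0 ≤ ival H' v := fun v hv => by
    have h := minVal_le (posDef_smul hpd hc) hv.1
    rw [hmin'] at h
    have e : ival (c • (P + H)) v = ival P v + ival H' v := by
      rw [← ival_add]
      congr 1
      simp only [H']
      abel
    rw [e, ← minVal_eq hv] at h
    linarith
  by_cases hH'0 : H' = 0
  · refine ⟨c⁻¹, inv_pos.2 hc, ?_⟩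
    rw [show c⁻¹ • P = c⁻¹ • (c • (P + H)) by rw [sub_eq_zero.1 hH'0], smul_smul,
      inv_mul_cancel₀ hc.ne', one_smul]
  have hlt := hrise H' hH's hpos' hN' hH'0
  rw [show P + H' = c • (P + H) by simp only [H']; abel] at hlt
  refine absurd hge (not_le.2 ?_)
  rw [← hermiteInv_smul hpd hc, hermiteInv, hermiteInv, hmin']
  exact div_lt_div_of_pos_left (pow_pos hm _) hP.det_pos hlt

theorem isExtreme_of_strict {P : Mat} (hP : P.PosDef) (h : IsStrictlyExtreme P) : IsExtreme P := by
  obtain ⟨δ, hδ, h⟩ := h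
  refine ⟨δ, hδ, fun H hH hs => le_of_not_gt fun hgt => ?_⟩
  obtain ⟨c, hc, he⟩ := h H hH hs hgt.le
  rw [he, hermiteInv_smul hP hc] at hgt
  exact lt_irrefl _ hgt

theorem perfect_of_noImproving {P : Mat} (hE : NoImproving P) : IsPerfect P := by
  intro H hH hv
  rcases le_total (P⁻¹ * H).trace 0 with h | h
  · exact hE H hH (fun v hvm => (hv v hvm).ge) h
  · have := hE (-H) hH.neg (fun v hvm => by
      rw [show -H = (-1 : ℝ) • H by simp, ival_smul, hv v hvm, mul_zero])
      (by rw [Matrix.mul_neg, trace_neg]; linarith)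
    exact neg_eq_zero.1 this

theorem noImproving_of_perfect_eutactic {P : Mat} (hp : IsPerfect P) (he : IsEutactic P) :
    NoImproving P := by
  intro H hH hv htr
  obtain ⟨F, hF, c, hc, hinv⟩ := he
  rw [hinv, Finset.sum_mul, trace_sum] at htr
  simp only [Matrix.smul_mul, trace_smul, trace_vecMulVec_mul, smul_eq_mul] at htr
  have hmem : ∀ v, v ∈ F ↔ v ∈ minVecs P := fun v => by rw [← hF, Finset.mem_coe]
  have hterm : ∀ v ∈ F, 0 ≤ c v * ival H v := fun v hvF =>
    mul_nonneg (hc v hvF).le (hv v ((hmem v).1 hvF))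
  refine hp H hH fun v hvm => ?_
  have h0 := (Finset.sum_eq_zero_iff_of_nonneg hterm).1
    (le_antisymm htr (Finset.sum_nonneg hterm)) v ((hmem v).2 hvm)
  exact (mul_eq_zero.1 h0).resolve_left (hc v ((hmem v).2 hvm)).ne'

/-- **Eutaxy** by minimising an exponential. -/
theorem eutactic_of_noImproving {P : Mat} (hP : P.PosDef) (hE : NoImproving P) :
    IsEutactic P := by
  classical
  set F := (minVecs_finite hP).toFinset
  have hmem : ∀ v, v ∈ F ↔ v ∈ minVecs P := fun v => Set.Finite.mem_toFinset _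
  let φ : Mat → ℝ := fun H => (P⁻¹ * H).trace + ∑ v ∈ F, Real.exp (-ival H v)
  have hφ : Continuous φ := by
    refine Continuous.add (by fun_prop) (continuous_finsetSum _ fun v _ => ?_)
    unfold ival quad
    fun_prop
  -- the sublevel sets are bounded
  obtain ⟨B, hB⟩ : ∃ B : ℝ, ∀ H : Mat, H.IsSymm → φ H ≤ φ 0 → absSum H ≤ B := by
    set U := {H : Mat | Small 1 H} ∩ ({H : Mat | absSum H = 1} ∩ {H : Mat | H.IsSymm})
    have hU : IsCompact U := (isCompact_small 1).inter_right
      ((isClosed_eq continuous_absSum continuous_const).inter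
        (by simp only [Matrix.IsSymm]; exact isClosed_eq (by fun_prop) continuous_id))
    obtain ⟨v₀, hv₀⟩ := minVecs_nonempty hP
    let ψ : Mat → ℝ := fun H =>
      max (P⁻¹ * H).trace (F.sup' ⟨v₀, (hmem v₀).2 hv₀⟩ fun v => -ival H v)
    have hψ : Continuous ψ := Continuous.max (by fun_prop)
      (Continuous.finset_sup'_apply _ fun v _ => by unfold ival quad; fun_prop)
    rcases U.eq_empty_or_nonempty with he | hne
    · refine ⟨0, fun H hH _ => le_of_not_gt fun h => ?_⟩
      have h1 : absSum ((absSum H)⁻¹ • H) = 1 := by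
        rw [absSum_smul, abs_inv, abs_of_pos h, inv_mul_cancel₀ h.ne']
      have hu : (absSum H)⁻¹ • H ∈ U := ⟨h1 ▸ small_absSum _, h1, hH.smul _⟩
      rw [he] at hu
      exact hu
    obtain ⟨u₀, hu₀, hmin⟩ := hU.exists_isMinOn hne hψ.continuousOn
    have hd : 0 < ψ u₀ := lt_of_not_ge fun h => by
      obtain ⟨h1, h2⟩ := max_le_iff.1 h
      have h3 : absSum u₀ = 1 := hu₀.2.1
      rw [hE u₀ hu₀.2.2 (fun v hv => neg_nonpos.1
        ((Finset.le_sup' (fun v => -ival u₀ v) ((hmem v).2 hv)).trans h2)) h1] at h3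
      simp [absSum] at h3
    set d := ψ u₀
    set a := absSum (P⁻¹ : Mat)
    set k : ℝ := ((n + 1 : ℕ) : ℝ)
    refine ⟨|φ 0| / d + 2 * (|φ 0| + k * (k * a) + 1) / d ^ 2 + 1, fun H hH hle => ?_⟩
    have hN := absSum_nonneg H
    have h0 := abs_nonneg (φ 0)
    have ha : 0 ≤ a := absSum_nonneg _
    have hq1 : 0 ≤ |φ 0| / d := by positivity
    have hq2 : 0 ≤ 2 * (|φ 0| + k * (k * a) + 1) / d ^ 2 := by positivity
    by_contra! hgt
    set r := absSum H
    have hr : 1 ≤ r := by linarith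
    set u := r⁻¹ • H
    have hu1 : absSum u = 1 := by
      rw [absSum_smul, abs_inv, abs_of_pos (by linarith), inv_mul_cancel₀ (by linarith)]
    have hHu : H = r • u := by rw [smul_smul, mul_inv_cancel₀ (by linarith), one_smul]
    have hψu : d ≤ ψ u := hmin ⟨hu1 ▸ small_absSum _, hu1, hH.smul _⟩
    have hexp : 0 ≤ ∑ v ∈ F, Real.exp (-ival H v) :=
      Finset.sum_nonneg fun v _ => (Real.exp_pos _).le
    have hle' : (P⁻¹ * H).trace + ∑ v ∈ F, Real.exp (-ival H v) ≤ |φ 0| :=
      hle.trans (le_abs_self _)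
    rcases le_max_iff.1 hψu with h | h
    · have h1 : r * d ≤ (P⁻¹ * H).trace := by
        rw [hHu, Matrix.mul_smul, trace_smul, smul_eq_mul]
        exact mul_le_mul_of_nonneg_left h hN
      have h2 : |φ 0| / d < r := by linarith
      rw [div_lt_iff₀ hd] at h2
      linarith
    · obtain ⟨v, hv, hvd⟩ := (Finset.le_sup'_iff _).1 h
      have h1 : Real.exp (r * d) ≤ ∑ v ∈ F, Real.exp (-ival H v) := by
        refine le_trans ?_ (Finset.single_le_sum (f := fun v => Real.exp (-ival H v))
          (fun v _ => (Real.exp_pos _).le) hv)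
        refine Real.exp_le_exp.2 ?_
        rw [hHu, ival_smul, ← mul_neg]
        exact mul_le_mul_of_nonneg_left hvd hN
      have h2 : 2 * (|φ 0| + k * (k * a) + 1) / d ^ 2 < r := by linarith
      rw [div_lt_iff₀ (by positivity)] at h2
      have h3 : -(k * (k * a) * r) ≤ (P⁻¹ * H).trace := by
        have h := ((small_absSum (P⁻¹ : Mat)).mul (small_absSum H))
        refine le_trans (le_of_eq ?_) (Finset.sum_le_sum fun i _ => (abs_le.1 (h i i)).1)
        rw [Finset.sum_const, Finset.card_univ, Fintype.card_fin, nsmul_eq_mul]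
        ring
      have h4 := Real.quadratic_le_exp_of_nonneg (mul_nonneg hN hd.le)
      have h6 : (2 * (|φ 0| + k * (k * a) + 1)) * r ≤ (r * d ^ 2) * r :=
        mul_le_mul_of_nonneg_right h2.le hN
      have h7 := mul_le_mul_of_nonneg_left hr (by positivity : (0 : ℝ) ≤ |φ 0| + 1)
      nlinarith [mul_nonneg hN hd.le]
  set T := {H : Mat | Small (max B 0) H} ∩ {H : Mat | H.IsSymm ∧ φ H ≤ φ 0}
  have hT : IsCompact T := (isCompact_small _).inter_right (by
    simp only [Set.ofPred_and, Matrix.IsSymm]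
    exact (isClosed_eq (by fun_prop) continuous_id).inter (isClosed_le hφ continuous_const))
  have h00 : (0 : Mat) ∈ T := ⟨fun i j => by simp, isSymm_zero, le_rfl⟩
  obtain ⟨H₀, hH₀, hmin⟩ := hT.exists_isMinOn ⟨0, h00⟩ hφ.continuousOn
  have hglob : ∀ H : Mat, H.IsSymm → φ H₀ ≤ φ H := fun H hH => by
    by_cases h : φ H ≤ φ 0
    · exact hmin ⟨(small_absSum H).mono ((hB H hH h).trans (le_max_left _ _)), hH, h⟩
    · exact (hmin h00).trans (not_le.1 h).le
  refine ⟨F, Set.ext hmem, fun v => Real.exp (-ival H₀ v), fun v _ => Real.exp_pos _, ?_⟩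
  set M : Mat := P⁻¹ - ∑ v ∈ F, Real.exp (-ival H₀ v) •
    vecMulVec (fun i => (v i : ℝ)) (fun i => (v i : ℝ))
  have hMs : M.IsSymm := by
    refine IsSymm.sub ?_ ?_
    · exact (posDef_iff_quad.1 hP.inv).1
    · rw [IsSymm, transpose_sum]
      exact Finset.sum_congr rfl fun v _ => by rw [transpose_smul, transpose_vecMulVec]
  have hgrad : (M * M).trace = 0 := by
    let g : ℝ → ℝ := fun t => ((P⁻¹ * H₀).trace + t * (P⁻¹ * M).trace) +
      ∑ v ∈ F, Real.exp (-(ival H₀ v + t * ival M v))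
    have hg : ∀ t, φ (H₀ + t • M) = g t := fun t => by
      simp only [φ, g, Matrix.mul_add, Matrix.mul_smul, trace_add, trace_smul, smul_eq_mul,
        ival_add, ival_smul]
    have hder : HasDerivAt g ((P⁻¹ * M).trace +
        ∑ v ∈ F, Real.exp (-ival H₀ v) * -ival M v) 0 := by
      refine HasDerivAt.fun_add ?_ (HasDerivAt.fun_sum fun v _ => ?_)
      · simpa using ((hasDerivAt_id (0 : ℝ)).mul_const (P⁻¹ * M).trace).const_add
          (P⁻¹ * H₀).trace
      · simpa using (((hasDerivAt_id (0 : ℝ)).mul_const (ival M v)).const_add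
          (ival H₀ v)).neg.exp
    have hlocmin : IsLocalMin g 0 := Filter.Eventually.of_forall fun t => by
      rw [← hg, ← hg, zero_smul, add_zero]
      exact hglob _ (hH₀.2.1.add (hMs.smul t))
    have h := hlocmin.hasDerivAt_eq_zero hder
    rw [show M * M = (P⁻¹ - ∑ v ∈ F, Real.exp (-ival H₀ v) •
      vecMulVec (fun i => (v i : ℝ)) (fun i => (v i : ℝ))) * M from rfl, Matrix.sub_mul,
      trace_sub, Finset.sum_mul, trace_sum, ← h, sub_eq_add_neg, ← Finset.sum_neg_distrib]
    congr 1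
    refine Finset.sum_congr rfl fun v _ => ?_
    rw [Matrix.smul_mul, trace_smul, trace_vecMulVec_mul, smul_eq_mul, mul_neg]
    rfl
  refine sub_eq_zero.1 (show M = 0 from ?_)
  rw [← hMs.eq] at hgrad
  ext i j
  simp only [Matrix.trace, Matrix.diag, Matrix.mul_apply, transpose_apply] at hgrad
  have h1 := (Finset.sum_eq_zero_iff_of_nonneg fun a _ =>
    Finset.sum_nonneg fun b _ => by rw [hMs.apply a b]; exact mul_self_nonneg _).1 hgrad j
    (Finset.mem_univ j)
  have h2 := (Finset.sum_eq_zero_iff_of_nonneg fun b _ => by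
    rw [hMs.apply j b]; exact mul_self_nonneg _).1 h1 i (Finset.mem_univ i)
  rw [hMs.apply j i] at h2
  rw [Matrix.zero_apply, ← hMs.apply i j]
  exact mul_self_eq_zero.1 h2

/-- **Voronoi's theorem.** -/
theorem extreme_iff {P : Mat} (hP : P.PosDef) :
    (IsExtreme P ↔ IsPerfect P ∧ IsEutactic P) ∧ (IsExtreme P ↔ IsStrictlyExtreme P) :=
  ⟨⟨fun h => ⟨perfect_of_noImproving (noImproving_of_extreme hP h),
      eutactic_of_noImproving hP (noImproving_of_extreme hP h)⟩,
    fun h => isExtreme_of_strict hP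
      (strictlyExtreme_of_noImproving hP (noImproving_of_perfect_eutactic h.1 h.2))⟩,
  ⟨fun h => strictlyExtreme_of_noImproving hP (noImproving_of_extreme hP h),
    isExtreme_of_strict hP⟩⟩

end FA.Perfect

end
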