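import Fermat.Agent.Perfect.Extreme
import Mathlib.LinearAlgebra.Dimension.Constructions
import Mathlib.LinearAlgebra.Basis.VectorSpace

/-!
# Perfect forms and the constant of Hermite

A perfect form is rational, its minimal vectors span, so its determinant is at most one when the
minimum is one; by reduction there are finitely many classes. The least determinant is attained,
at a perfect form.
-/

set_option autoImplicit false
set_option linter.style.haveILetI false

noncomputable section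

open Matrix FA.Reduction FA.UnitsOrders FA.OrthogonalUnits

namespace FA.Perfect

variable {n : ℕ}

local notation "Mat" => Matrix (Fin (n + 1)) (Fin (n + 1)) ℝ
local notation "IVec" => Fin (n + 1) → ℤ

/-- **A perfect form with minimum one is rational.** -/
theorem exists_rat_of_perfect {P : Mat} (hP : P.PosDef) (hp : IsPerfect P)
    (hm : minVal P = 1) :
    ∃ Q : Matrix (Fin (n + 1)) (Fin (n + 1)) ℚ, P = Q.map (fun q : ℚ => (q : ℝ)) := by
  obtain ⟨π, hπ⟩ := LinearMap.exists_leftInverse_of_injective (Algebra.linearMap ℚ ℝ)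
    (LinearMap.ker_eq_bot.2 (algebraMap ℚ ℝ).injective)
  have hπ1 : π 1 = 1 := by
    have := LinearMap.congr_fun hπ 1
    simpa using this
  refine ⟨P.map π, sub_eq_zero.1 (hp _ ((posDef_iff_quad.1 hP).1.sub ?_) fun v hv => ?_)⟩
  · ext i j
    simp [(posDef_iff_quad.1 hP).1.apply i j]
  · have h1 : ival P v = 1 := (minVal_eq hv).symm.trans hm
    have hexp : ∀ M : Mat, ival M v = ∑ i, ∑ j, (v i * v j : ℤ) • M i j := fun M => by
      simp only [ival, quad, dotProduct, mulVec, Finset.mul_sum, zsmul_eq_mul]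
      refine Finset.sum_congr rfl fun i _ => Finset.sum_congr rfl fun j _ => ?_
      push_cast
      ring
    have h2 : ∑ i, ∑ j, (v i * v j : ℤ) • π (P i j) = 1 := by
      rw [← hπ1, ← h1, hexp]
      simp only [map_sum, map_zsmul]
    have h3 : ival ((P.map π).map fun q : ℚ => (q : ℝ)) v = 1 := by
      rw [hexp, ← Rat.cast_one (α := ℝ), ← h2]
      simp [Matrix.map_apply]
    rw [show P - (P.map π).map (fun q : ℚ => (q : ℝ)) =
      P + (-1 : ℝ) • (P.map π).map (fun q : ℚ => (q : ℝ)) by rw [neg_one_smul, sub_eq_add_neg],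
      ival_add, ival_smul, h1, h3]
    norm_num

/-- The minimal vectors of a perfect form span. -/
theorem span_minVecs {P : Mat} (hp : IsPerfect P) :
    Submodule.span ℝ ((fun v : IVec => fun i => (v i : ℝ)) '' minVecs P) = ⊤ := by
  set W := Submodule.span ℝ ((fun v : IVec => fun i => (v i : ℝ)) '' minVecs P)
  by_contra hW
  obtain ⟨f, hf0, hfW⟩ := Submodule.exists_le_ker_of_lt_top W (lt_top_iff_ne_top.2 hW)
  set u : Fin (n + 1) → ℝ := fun i => f (Pi.single i 1)
  have hf : ∀ x, f x = u ⬝ᵥ x := fun x => by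
    conv_lhs => rw [pi_eq_sum_univ' x]
    simp [u, dotProduct, mul_comm]
  have hu : u ≠ 0 := fun h => hf0 (LinearMap.ext fun x => by simp [hf, h])
  have h := hp (vecMulVec u u) (transpose_vecMulVec u u) fun v hv => by
    show quad (vecMulVec u u) (fun i => (v i : ℝ)) = 0
    have h0 : f (fun i => (v i : ℝ)) = 0 :=
      LinearMap.mem_ker.1 (hfW (Submodule.subset_span ⟨v, hv, rfl⟩))
    rw [quad, vecMulVec_mulVec, ← hf, h0]
    simp
  obtain ⟨i, hi⟩ := Function.ne_iff.1 hu
  have := congrFun (congrFun h i) i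
  rw [vecMulVec_apply, Matrix.zero_apply, mul_self_eq_zero] at this
  exact hi this

theorem ival_congr (P : Mat) (U : Matrix (Fin (n + 1)) (Fin (n + 1)) ℤ) (v : IVec) :
    ival ((toReal U)ᵀ * P * toReal U) v = ival P (U *ᵥ v) := by
  rw [ival, ival, quad_congr, toReal_mulVec]

/-- Independent minimal vectors of a perfect form give a form with unit diagonal. -/
theorem exists_unit_diag {P : Mat} (hP : P.PosDef) (hp : IsPerfect P) (hm : minVal P = 1) :
    ∃ (k : ℤ) (G : Mat), k ≠ 0 ∧ G.PosDef ∧ (∀ j, G j j = 1) ∧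
      (∀ v : IVec, v ≠ 0 → 1 ≤ ival G v) ∧ G.det = (k : ℝ) ^ 2 * P.det ∧ G.det ≤ 1 := by
  classical
  obtain ⟨κ, a, ha, hspan, hli⟩ :=
    exists_linearIndependent' ℝ fun v : minVecs P => fun i => ((v : IVec) i : ℝ)
  have htop : ⊤ ≤ Submodule.span ℝ (Set.range ((fun v : minVecs P =>
      fun i => ((v : IVec) i : ℝ)) ∘ a)) := by
    rw [hspan, ← span_minVecs hp, Set.image_eq_range]
  let b := Module.Basis.mk hli htop
  let e := b.indexEquiv (Pi.basisFun ℝ (Fin (n + 1)))
  set V : Matrix (Fin (n + 1)) (Fin (n + 1)) ℤ :=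
    Matrix.of fun i j => (a (e.symm j) : IVec) i
  have hli' : LinearIndependent ℝ (toReal V)ᵀ.row := hli.comp e.symm e.symm.injective
  have hVu : IsUnit (toReal V).det := by
    rw [← det_transpose]
    exact (isUnit_iff_isUnit_det _).1 (linearIndependent_rows_iff_isUnit.1 hli')
  have hV0 : V.det ≠ 0 := fun h => hVu.ne_zero (by rw [det_toReal, h, Int.cast_zero])
  set G := (toReal V)ᵀ * P * toReal V
  have hG : G.PosDef := by
    simp only [G]
    rw [← conjTranspose_eq_transpose_of_trivial]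
    exact hP.conjTranspose_mul_mul_same (mulVec_injective_of_isUnit_det hVu)
  have hdiag : ∀ j, G j j = 1 := fun j => by
    rw [show G j j = quad P fun i => toReal V i j from diag_congr P (toReal V) j]
    exact (minVal_eq (a (e.symm j)).2).symm.trans hm
  have hle : G.det ≤ 1 := by
    rw [hG.1.det_eq_prod_eigenvalues]
    simp only [RCLike.ofReal_real_eq_id, id_eq]
    refine (Finset.prod_le_prod (fun i _ => (hG.eigenvalues_pos i).le) fun i _ =>
      show hG.1.eigenvalues i ≤ Real.exp (hG.1.eigenvalues i - 1) by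
        linarith [Real.add_one_le_exp (hG.1.eigenvalues i - 1)]).trans (le_of_eq ?_)
    have h := hG.1.trace_eq_sum_eigenvalues
    simp only [RCLike.ofReal_real_eq_id, id_eq] at h
    rw [← Real.exp_sum, Real.exp_eq_one_iff, Finset.sum_sub_distrib, ← h]
    simp [Matrix.trace, hdiag]
  refine ⟨V.det, G, hV0, hG, hdiag, fun v hv => ?_, ?_, hle⟩
  · rw [ival_congr, ← hm]
    exact minVal_le hP fun h => hv (eq_zero_of_mulVec_eq_zero hV0 h)
  · rw [det_mul, det_mul, det_transpose, det_toReal]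
    ring

/-- **The determinant of a perfect form** of minimum one is at most one. -/
theorem det_le_one_of_perfect {P : Mat} (hP : P.PosDef) (hp : IsPerfect P)
    (hm : minVal P = 1) : P.det ≤ 1 := by
  obtain ⟨k, G, hk, -, -, -, hdet, hle⟩ := exists_unit_diag hP hp hm
  have hsq : (1 : ℝ) ≤ (k : ℝ) ^ 2 := by
    exact_mod_cast (show (1 : ℤ) ≤ k ^ 2 from pow_two_pos_of_ne_zero hk)
  rw [hdet] at hle
  nlinarith [hP.det_pos]

/-- The least determinant of a form of minimum one, from Hermite's inequality. -/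
def detLower (n : ℕ) : ℝ := Real.sqrt ((4 / 3 : ℝ) ^ (n * (n + 1)))⁻¹

theorem detLower_pos (n : ℕ) : 0 < detLower n := Real.sqrt_pos.2 (by positivity)

theorem detLower_le {P : Mat} (hP : P.PosDef) (h1 : ∀ v : IVec, v ≠ 0 → 1 ≤ ival P v) :
    detLower n ≤ P.det := by
  obtain ⟨v, hv, h⟩ := exists_short_vector n P hP
  have h2 : (1 : ℝ) ≤ (4 / 3 : ℝ) ^ (n * (n + 1)) * P.det ^ 2 :=
    (one_le_pow₀ (h1 v hv)).trans h
  rw [detLower, Real.sqrt_le_left hP.det_pos.le, inv_le_iff_one_le_mul₀ (by positivity), mul_comm]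
  exact h2

theorem abs_entry_le {P : Mat} (hs : P.IsSymm) (hpos : ∀ x, 0 ≤ quad P x) {R : ℝ}
    (hdiag : ∀ j, P j j ≤ R) : Small R P := fun i j => by
  have h : ∀ t : ℝ, quad P (Pi.single i 1 + Pi.single j t) =
      P i i + 2 * t * P i j + t ^ 2 * P j j := fun t => by
    simp [quad, mulVec_add, mulVec_single, dotProduct_add, add_dotProduct, single_dotProduct,
      hs.apply i j]
    ring
  have h1 := hpos (Pi.single i 1 + Pi.single j 1)
  have h2 := hpos (Pi.single i 1 + Pi.single j (-1))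
  rw [h] at h1 h2
  rw [abs_le]
  constructor <;> linarith [hdiag i, hdiag j]

theorem posDef_congr {P : Mat} (hP : P.PosDef) {U : Matrix (Fin (n + 1)) (Fin (n + 1)) ℤ}
    (hU : IsUnit U.det) : ((toReal U)ᵀ * P * toReal U).PosDef := by
  rw [← conjTranspose_eq_transpose_of_trivial]
  exact hP.conjTranspose_mul_mul_same (mulVec_injective_of_isUnit_det
    (isUnit_iff_ne_zero.2 fun h => by simpa [h] using abs_det_toReal hU))

theorem mulVec_ne_zero_of_isUnit {U : Matrix (Fin (n + 1)) (Fin (n + 1)) ℤ} (hU : IsUnit U.det)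
    {v : IVec} (hv : v ≠ 0) : U *ᵥ v ≠ 0 := fun h =>
  hv (mulVec_injective_of_isUnit ((isUnit_iff_isUnit_det U).2 hU) (by rw [h, mulVec_zero]))

theorem exists_mulVec_eq {U : Matrix (Fin (n + 1)) (Fin (n + 1)) ℤ} (hU : IsUnit U.det)
    (w : IVec) : ∃ v, U *ᵥ v = w :=
  ⟨U⁻¹ *ᵥ w, by rw [mulVec_mulVec, mul_nonsing_inv _ hU, one_mulVec]⟩

theorem mem_minVecs_congr {P : Mat} {U : Matrix (Fin (n + 1)) (Fin (n + 1)) ℤ}
    (hU : IsUnit U.det) {v : IVec} :
    v ∈ minVecs ((toReal U)ᵀ * P * toReal U) ↔ U *ᵥ v ∈ minVecs P := by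
  refine ⟨fun h => ⟨mulVec_ne_zero_of_isUnit hU h.1, fun w hw => ?_⟩,
    fun h => ⟨fun h0 => h.1 (by rw [h0, mulVec_zero]), fun w hw => ?_⟩⟩
  · obtain ⟨w', rfl⟩ := exists_mulVec_eq hU w
    have := h.2 w' fun h0 => hw (by rw [h0, mulVec_zero])
    rwa [ival_congr, ival_congr] at this
  · rw [ival_congr, ival_congr]
    exact h.2 _ (mulVec_ne_zero_of_isUnit hU hw)

variable (n) in
/-- **Finitely many classes of perfect forms.** -/
theorem finite_perfect :
    ∃ F : Set (Matrix (Fin (n + 1)) (Fin (n + 1)) ℝ), F.Finite ∧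
      ∀ P : Matrix (Fin (n + 1)) (Fin (n + 1)) ℝ, P.PosDef → IsPerfect P → minVal P = 1 →
        ∃ U : Matrix (Fin (n + 1)) (Fin (n + 1)) ℤ, IsUnit U.det ∧
          (toReal U)ᵀ * P * toReal U ∈ F := by
  classical
  obtain ⟨R₀, hR₀⟩ := exists_bounded_diag (n + 1) 1 1 one_pos
  set R := max R₀ 1
  set B : ℝ := (n + 1 : ℕ) * ((n + 1).factorial * R ^ (n + 1) / detLower n) + 1
  obtain ⟨N, hN⟩ := exists_nat_ge B
  let T : Set IVec := Set.univ.pi fun _ => Set.Icc (-(N : ℤ)) N
  have hTfin : T.Finite := Set.Finite.pi fun _ => Set.finite_Icc _ _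
  let good : Set Mat := {P | P.PosDef ∧ IsPerfect P ∧ minVal P = 1 ∧ ∀ j, P j j ≤ R}
  have hsub : minVecs '' good ⊆ {S | S ⊆ T} := by
    rintro _ ⟨P, ⟨hP, -, hm, hd⟩, rfl⟩ v hv i -
    have hdl : detLower n ≤ P.det :=
      detLower_le hP fun w hw => hm ▸ minVal_le hP hw
    have hinv : ∀ k, P⁻¹ k k ≤ (n + 1).factorial * R ^ (n + 1) / detLower n := fun k => by
      rw [Matrix.inv_def, Matrix.smul_apply, smul_eq_mul, Ring.inverse_eq_inv', inv_mul_eq_div,
        adjugate_apply]
      refine div_le_div₀ (by positivity) ?_ (detLower_pos n) hdl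
      refine (le_abs_self _).trans (Small.abs_det_le fun a b => ?_)
      rw [updateRow_apply]
      split_ifs
      · rw [Pi.single_apply]
        split_ifs <;> simp [R]
      · exact abs_entry_le (posDef_iff_quad.1 hP).1 (quad_nonneg hP) hd a b
    have h : ((v i : ℝ)) ^ 2 ≤ N := by
      refine ((sq_le_quad_mul hP i fun k => (v k : ℝ)).trans ?_).trans hN
      rw [show (quad P fun k => (v k : ℝ)) = 1 from (minVal_eq hv).symm.trans hm, one_mul]
      refine (hinv i).trans ((le_mul_of_one_le_left ?_ (Nat.one_le_cast.2 n.succ_pos)).trans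
        (le_add_of_nonneg_right zero_le_one))
      have := detLower_pos n
      positivity
    have h2 : v i ^ 2 ≤ (N : ℤ) := by exact_mod_cast h
    rw [Set.mem_Icc]
    constructor <;> nlinarith [Int.le_self_sq (v i), Int.le_self_sq (-v i)]
  have hgood : good.Finite := by
    refine Set.Finite.of_finite_image (hTfin.finite_subsets.subset hsub) ?_
    rintro P ⟨hP, hp, hm, -⟩ Q ⟨hQ, -, hm', -⟩ (he : minVecs P = minVecs Q)
    refine sub_eq_zero.1
      (hp _ ((posDef_iff_quad.1 hP).1.sub (posDef_iff_quad.1 hQ).1) fun v hv => ?_)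
    have h1 : ival P v = 1 := (minVal_eq hv).symm.trans hm
    have h2 : ival Q v = 1 := (minVal_eq (he ▸ hv)).symm.trans hm'
    rw [show P - Q = P + (-1 : ℝ) • Q by rw [neg_one_smul, sub_eq_add_neg], ival_add, ival_smul,
      h1, h2]
    norm_num
  refine ⟨good, hgood, fun P hP hp hm => ?_⟩
  obtain ⟨U, hU, hd⟩ := hR₀ P hP (det_le_one_of_perfect hP hp hm)
    fun v hv => hm ▸ minVal_le hP hv
  have hP' := posDef_congr hP hU
  refine ⟨U, hU, hP', fun H hH hv => ?_, ?_, fun j => (hd j).trans (le_max_left _ _)⟩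
  · obtain ⟨U', hU'⟩ : ∃ U', U' = U⁻¹ := ⟨_, rfl⟩
    have hu' : IsUnit U'.det := hU' ▸ isUnit_nonsing_inv_det _ hU
    have h0 : (toReal U')ᵀ * H * toReal U' = 0 := hp _ (by
        rw [IsSymm, transpose_mul, transpose_mul, transpose_transpose, hH.eq, Matrix.mul_assoc])
      fun w hw => by
        rw [ival_congr]
        refine hv _ ((mem_minVecs_congr hU).2 ?_)
        rwa [hU', mulVec_mulVec, mul_nonsing_inv _ hU, one_mulVec]
    have hone : toReal U' * toReal U = 1 := by
      rw [← toReal_mul, hU', nonsing_inv_mul _ hU, toReal_one]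
    calc H = (toReal U' * toReal U)ᵀ * H * (toReal U' * toReal U) := by simp [hone]
      _ = (toReal U)ᵀ * ((toReal U')ᵀ * H * toReal U') * toReal U := by
          simp only [transpose_mul, Matrix.mul_assoc]
      _ = 0 := by simp [h0]
  · obtain ⟨w, hw⟩ := minVecs_nonempty hP'
    rw [minVal_eq hw, ival_congr, ← minVal_eq ((mem_minVecs_congr hU).1 hw), hm]

/-- Nonnegative at integral vectors, so nonnegative. -/
theorem quad_nonneg_of_ival {P : Mat} (h : ∀ v : IVec, 0 ≤ ival P v)
    (x : Fin (n + 1) → ℝ) : 0 ≤ quad P x := by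
  have hd : DenseRange fun y : Fin (n + 1) → ℚ => fun i => ((y i : ℚ) : ℝ) :=
    DenseRange.piMap fun _ => Rat.denseRange_cast
  refine hd.induction_on x (isClosed_le continuous_const (by unfold quad; fun_prop)) fun y => ?_
  obtain ⟨m, hm, hz⟩ := exists_nsmul_int y
  choose z hz using hz
  have e : (fun i => (z i : ℝ)) = (m : ℝ) • fun i => (y i : ℝ) := funext fun i => by
    rw [Pi.smul_apply, smul_eq_mul]
    exact_mod_cast congrArg (fun q : ℚ => (q : ℝ)) (hz i).symm
  have h1 := h z
  rw [ival, e, quad_smul] at h1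
  exact nonneg_of_mul_nonneg_right h1 (by positivity)

variable (n) in
/-- **The constant of Hermite is attained**, at a rational perfect form. -/
theorem exists_least_det :
    ∃ P : Matrix (Fin (n + 1)) (Fin (n + 1)) ℝ, P.PosDef ∧ minVal P = 1 ∧
      (∀ Q : Matrix (Fin (n + 1)) (Fin (n + 1)) ℝ, Q.PosDef →
        hermiteInv Q ≤ hermiteInv P) ∧
      IsExtreme P := by
  classical
  obtain ⟨R₀, hR₀⟩ := exists_bounded_diag (n + 1) 1 1 one_pos
  set R := max R₀ 1
  set e := detLower n
  have he := detLower_pos n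
  let C : Set Mat := {P | Small R P} ∩
    ({P | P.IsSymm} ∩ ({P | e ≤ P.det} ∩ {P | ∀ v : IVec, v ≠ 0 → 1 ≤ ival P v}))
  have hC : IsCompact C := (isCompact_small R).inter_right
    ((by simp only [Matrix.IsSymm]; exact isClosed_eq (by fun_prop) continuous_id :
      IsClosed {P : Mat | P.IsSymm}).inter
      ((isClosed_le continuous_const continuous_id.matrix_det).inter
        (by simp only [Set.ofPred_forall]
            exact isClosed_iInter fun v => isClosed_iInter fun _ =>
              isClosed_le continuous_const (by unfold ival quad; fun_prop))))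
  have hCpd : ∀ P ∈ C, P.PosDef := fun P ⟨_, hs, hd, h1⟩ => by
    have hn : ∀ v : IVec, 0 ≤ ival P v := fun v => by
      rcases eq_or_ne v 0 with rfl | hv
      · simp [ival, quad, dotProduct]
      · exact zero_le_one.trans (h1 v hv)
    obtain ⟨S, d, hS, hS', hPd, hdd⟩ := exists_diagonal hs (he.trans_le hd).ne'
    have hdpos : ∀ i, 0 < d i := fun i => by
      refine lt_of_le_of_ne ?_ (hdd i).symm
      have h := quad_nonneg_of_ival hn (Sᵀ *ᵥ Pi.single i 1)
      rw [hPd, quad_congr, mulVec_mulVec, hS', one_mulVec, quad, dotProduct_diag, dval,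
        Finset.sum_eq_single i (fun j _ hj => by simp [hj]) (by simp)] at h
      simpa using h
    refine posDef_iff_quad.2 ⟨hs, fun x hx => ?_⟩
    have hy : S *ᵥ x ≠ 0 := fun h0 => hx (by
      rw [← Matrix.one_mulVec x, ← hS, ← mulVec_mulVec, h0, mulVec_zero])
    obtain ⟨i, hi⟩ := Function.ne_iff.1 hy
    rw [hPd, quad_congr, quad, dotProduct_diag]
    exact Finset.sum_pos' (fun j _ => mul_nonneg (hdpos j).le (sq_nonneg _))
      ⟨i, Finset.mem_univ i, mul_pos (hdpos i) (pow_two_pos_of_ne_zero hi)⟩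
  -- reduction into the compact set
  have hred : ∀ Q : Mat, Q.PosDef → Q.det ≤ 1 →
      (∀ v : IVec, v ≠ 0 → 1 ≤ ival Q v) → ∃ P ∈ C, P.det = Q.det := by
    intro Q hQ hdet h1
    obtain ⟨U, hU, hd⟩ := hR₀ Q hQ hdet h1
    have hP := posDef_congr hQ hU
    have hdetP : ((toReal U)ᵀ * Q * toReal U).det = Q.det := by
      rw [det_mul, det_mul, det_transpose, mul_right_comm, ← sq, ← sq_abs, abs_det_toReal hU,
        one_pow, one_mul]
    exact ⟨_, ⟨abs_entry_le (posDef_iff_quad.1 hP).1 (quad_nonneg hP)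
        (fun j => (hd j).trans (le_max_left _ _)), (posDef_iff_quad.1 hP).1,
      (detLower_le hQ h1).trans_eq hdetP.symm, fun v hv => ival_congr Q U v ▸
        h1 _ (mulVec_ne_zero_of_isUnit hU hv)⟩, hdetP⟩
  have hone : ∀ v : IVec, v ≠ 0 → 1 ≤ ival (1 : Mat) v := fun v hv => by
    obtain ⟨i, hi⟩ := Function.ne_iff.1 hv
    rw [ival, quad, one_mulVec]
    have h : (1 : ℝ) ≤ (v i : ℝ) * v i := by
      exact_mod_cast (show (1 : ℤ) ≤ v i * v i from mul_self_pos.2 hi)
    exact h.trans (Finset.single_le_sum (f := fun k => (v k : ℝ) * v k)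
      (fun k _ => mul_self_nonneg _) (Finset.mem_univ i))
  obtain ⟨P₁, hP₁, hP₁det⟩ := hred 1 PosDef.one (by simp) hone
  obtain ⟨P, hPC, hmin⟩ := hC.exists_isMinOn ⟨P₁, hP₁⟩ (f := fun M : Mat => M.det)
    continuous_id.matrix_det.continuousOn
  have hP := hCpd P hPC
  have hle : ∀ Q : Mat, Q.PosDef → (∀ v : IVec, v ≠ 0 → 1 ≤ ival Q v) → P.det ≤ Q.det := by
    intro Q hQ h1
    by_cases h : Q.det ≤ 1
    · obtain ⟨P', hP', he'⟩ := hred Q hQ h h1
      exact he' ▸ hmin hP'
    · exact ((show P.det ≤ P₁.det from hmin hP₁).trans_eq (by rw [hP₁det, det_one])).trans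
        (not_le.1 h).le
  have hm1 : 1 ≤ minVal P := le_minVal hPC.2.2.2
  have hscale : ∀ Q : Mat, Q.PosDef → P.det * minVal Q ^ (n + 1) ≤ Q.det := fun Q hQ => by
    have hμ := minVal_pos hQ
    have h := hle _ (posDef_smul hQ (inv_pos.2 hμ)) fun v hv => by
      rw [ival_smul, inv_mul_eq_div, one_le_div hμ]
      exact minVal_le hQ hv
    rw [det_smul, Fintype.card_fin, inv_pow, inv_mul_eq_div, le_div_iff₀ (pow_pos hμ _)] at h
    exact h
  have hm : minVal P = 1 := by
    refine le_antisymm ?_ hm1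
    have h := le_of_mul_le_mul_left ((hscale P hP).trans_eq (mul_one _).symm) hP.det_pos
    exact le_of_pow_le_pow_left₀ n.succ_ne_zero zero_le_one (h.trans_eq (one_pow _).symm)
  have hglob : ∀ Q : Mat, Q.PosDef → hermiteInv Q ≤ hermiteInv P := fun Q hQ => by
    rw [hermiteInv, hermiteInv, hm, one_pow, div_le_div_iff₀ hQ.det_pos hP.det_pos, one_mul,
      mul_comm]
    exact hscale Q hQ
  obtain ⟨δ, hδ, hnear⟩ := exists_near hP
  exact ⟨P, hP, hm, hglob, δ, hδ, fun H hH hs => hglob _ (hnear H hH hs).1⟩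

end FA.Perfect

end
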