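import Fermat.Agent.Perfect.Finite

/-!
# Mordell's inequality for the constant of Hermite

A form whose invariant is the greatest is compared with the section orthogonal to a minimal vector
of its inverse, which has one variable less.
-/

set_option autoImplicit false
set_option linter.style.haveILetI false

noncomputable section

open Matrix FA.Reduction FA.UnitsOrders FA.OrthogonalUnits

namespace FA.Perfect

variable {n : ℕ}

theorem hermiteInv_pos {P : Matrix (Fin (n + 1)) (Fin (n + 1)) ℝ} (hP : P.PosDef) :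
    0 < hermiteInv P :=
  div_pos (pow_pos (minVal_pos hP) _) hP.det_pos

/-- A minimal vector may be taken primitive. -/
theorem exists_primitive_minVec {P : Matrix (Fin (n + 1)) (Fin (n + 1)) ℝ} (hP : P.PosDef) :
    ∃ w ∈ minVecs P, Primitive w := by
  obtain ⟨v, hv⟩ := minVecs_nonempty hP
  obtain ⟨g, w, hg, hw, rfl⟩ := exists_primitive_smul hv.1
  have hw0 : w ≠ 0 := fun h => hv.1 (by rw [h, smul_zero])
  refine ⟨w, ⟨hw0, fun u hu => le_trans ?_ (hv.2 u hu)⟩, hw⟩
  have e : (fun i => ((g • w) i : ℝ)) = (g : ℝ) • fun i => (w i : ℝ) :=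
    funext fun i => by simp
  rw [ival, ival, e, quad_smul]
  refine le_mul_of_one_le_left (quad_nonneg hP _) ?_
  exact_mod_cast (show (1 : ℤ) ≤ g ^ 2 from pow_two_pos_of_ne_zero hg)

/-- The section of a form where the first coordinate is zero. -/
theorem ival_submatrix_succ (P : Matrix (Fin (n + 1)) (Fin (n + 1)) ℝ) (v : Fin n → ℤ) :
    ival (P.submatrix Fin.succ Fin.succ) v = ival P (Fin.cons 0 v) := by
  simp [ival, quad, dotProduct, mulVec, Fin.sum_univ_succ]

/-- **Mordell's inequality.** -/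
theorem mordell_inequality {c : ℝ}
    (h : ∀ Q : Matrix (Fin (n + 1)) (Fin (n + 1)) ℝ, Q.PosDef → hermiteInv Q ≤ c)
    {P : Matrix (Fin (n + 2)) (Fin (n + 2)) ℝ} (hP : P.PosDef) :
    hermiteInv P ^ n ≤ c ^ (n + 2) := by
  obtain ⟨O, hO, hm, hmax, -⟩ := exists_least_det (n + 1)
  refine le_trans (pow_le_pow_left₀ (hermiteInv_pos hP).le (hmax P hP) n) ?_
  obtain ⟨w, hw, hwp⟩ := exists_primitive_minVec hO.inv
  obtain ⟨U, hU, hcol⟩ := exists_unimodular_col hwp
  have hV : IsUnit (U⁻¹)ᵀ.det := by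
    rw [det_transpose]
    exact isUnit_nonsing_inv_det _ hU
  set O' := (toReal (U⁻¹)ᵀ)ᵀ * O * toReal (U⁻¹)ᵀ with hO'
  have hpd : O'.PosDef := posDef_congr hO hV
  have hdet : O'.det = O.det := by
    rw [det_mul, det_mul, det_transpose, mul_right_comm, ← sq, ← sq_abs, abs_det_toReal hV,
      one_pow, one_mul]
  have hinv : O'⁻¹ = (toReal U)ᵀ * O⁻¹ * toReal U := by
    refine Matrix.inv_eq_right_inv ?_
    have h1 : toReal (U⁻¹)ᵀ * (toReal U)ᵀ = 1 := by
      rw [show (toReal U)ᵀ = toReal Uᵀ from (transpose_map ..).symm, ← toReal_mul,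
        ← transpose_mul, mul_nonsing_inv _ hU, transpose_one, toReal_one]
    have h2 : (toReal (U⁻¹)ᵀ)ᵀ * toReal U = 1 := by
      rw [show (toReal (U⁻¹)ᵀ)ᵀ = toReal U⁻¹ from rfl, ← toReal_mul, nonsing_inv_mul _ hU,
        toReal_one]
    rw [hO', show ∀ A B C : Matrix (Fin (n + 2)) (Fin (n + 2)) ℝ, Aᵀ * O * A * (B * O⁻¹ * C) =
      Aᵀ * (O * (A * B) * O⁻¹) * C from fun A B C => by simp only [Matrix.mul_assoc], h1,
      Matrix.mul_one, mul_nonsing_inv _ (isUnit_iff_ne_zero.2 hO.det_pos.ne'), Matrix.mul_one, h2]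
  -- the corner of the inverse is the least value of the inverse
  have hcorner : O'⁻¹ 0 0 = minVal O⁻¹ := by
    rw [hinv, diag_congr, minVal_eq hw, ival]
    exact congrArg (quad O⁻¹) (funext fun i => congrArg (Int.cast : ℤ → ℝ) (hcol i))
  set M := O'.submatrix Fin.succ Fin.succ
  have hMpd : M.PosDef := hpd.submatrix (Fin.succ_injective _)
  have hMdet : M.det = minVal O⁻¹ * O.det := by
    rw [← hcorner, Matrix.inv_def, Matrix.smul_apply, smul_eq_mul, Ring.inverse_eq_inv',
      adjugate_fin_succ_eq_det_submatrix, hdet]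
    simp [M, mul_comm, hO.det_pos.ne']
  have hMmin : 1 ≤ minVal M := le_minVal fun v hv => by
    have h0 : (Fin.cons 0 v : Fin (n + 2) → ℤ) ≠ 0 := fun h0 =>
      hv (funext fun i => by simpa using congrFun h0 i.succ)
    rw [ival_submatrix_succ, ival_congr, ← hm]
    exact minVal_le hO (mulVec_ne_zero_of_isUnit hV h0)
  have h1 : 1 ≤ c * (minVal O⁻¹ * O.det) := by
    rw [← hMdet]
    exact (one_le_pow₀ hMmin).trans ((div_le_iff₀ hMpd.det_pos).1 (h M hMpd))
  set G := hermiteInv O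
  have hG : G = O.det⁻¹ := by simp [G, hermiteInv, hm]
  have hGc : G ≤ c * minVal O⁻¹ := by
    rw [hG, inv_le_iff_one_le_mul₀ hO.det_pos, mul_assoc]
    exact h1
  have hinvle : minVal O⁻¹ ^ (n + 2) ≤ G ^ 2 := by
    have := hmax _ hO.inv
    rw [hermiteInv, det_nonsing_inv, Ring.inverse_eq_inv', ← hG,
      div_le_iff₀ (hermiteInv_pos hO)] at this
    rwa [sq]
  have hGpos : 0 < G := hermiteInv_pos hO
  have hc : 0 ≤ c := le_of_lt <| pos_of_mul_pos_left (hGpos.trans_le hGc) (minVal_pos hO.inv).le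
  refine le_of_mul_le_mul_right ?_ (pow_pos hGpos 2)
  rw [← pow_add]
  refine (pow_le_pow_left₀ hGpos.le hGc (n + 2)).trans ?_
  rw [mul_pow]
  exact mul_le_mul_of_nonneg_left hinvle (pow_nonneg hc _)

/-- An integral form that is positive is at least one. -/
theorem one_le_minVal {P : Matrix (Fin (n + 1)) (Fin (n + 1)) ℝ} (hP : P.PosDef)
    {q : (Fin (n + 1) → ℤ) → ℤ} (hq : ∀ v, ival P v = q v) : 1 ≤ minVal P :=
  le_minVal fun v hv => by
    have h := ival_pos hP hv
    rw [hq] at h ⊢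
    exact_mod_cast h

end FA.Perfect

end
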