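import Fermat.Agent.Perfect.Mordell

/-!
# The constant of Hermite up to four variables

Two variables: Hermite's inequality is sharp. Three: the minimal vectors of an extreme form form a
basis, so it is enough to bound the determinant of a reduced form with unit diagonal. Four:
Mordell's inequality from three. The values are attained at `A₂`, `A₃` and `D₄`.
-/

set_option autoImplicit false
set_option linter.style.haveILetI false

noncomputable section

open Matrix FA.Reduction FA.UnitsOrders FA.OrthogonalUnits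

namespace FA.Perfect

/-- Two variables. -/
theorem hermiteInv_binary_le {P : Matrix (Fin 2) (Fin 2) ℝ} (hP : P.PosDef) :
    hermiteInv P ≤ 4 / 3 := by
  obtain ⟨v, hv, h⟩ := exists_short_vector 1 P hP
  have h1 : minVal P ^ 4 ≤ ((4 / 3) * P.det) ^ 2 :=
    (pow_le_pow_left₀ (minVal_pos hP).le (minVal_le hP hv) 4).trans
      (h.trans_eq (by ring))
  rw [hermiteInv, div_le_iff₀ hP.det_pos]
  refine le_of_pow_le_pow_left₀ two_ne_zero (mul_nonneg (by norm_num) hP.det_pos.le) ?_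
  rw [← pow_mul]
  exact h1

theorem ternary_bound_pos {a b c : ℝ} (a1 : 0 ≤ a) (a2 : a ≤ 1 / 2) (b1 : 0 ≤ b) (b2 : b ≤ 1 / 2)
    (c1 : 0 ≤ c) (c2 : c ≤ 1 / 2) :
    a ^ 2 + b ^ 2 + c ^ 2 - 2 * (a * b * c) ≤ 1 / 2 := by
  have hB : 0 ≤ 1 / 4 + a * b - a ^ 2 - b ^ 2 := by
    rcases le_total a b with h | h
    · nlinarith [mul_nonneg a1 (sub_nonneg.2 h)]
    · nlinarith [mul_nonneg b1 (sub_nonneg.2 h)]
  have hA : 0 ≤ 1 / 2 - a ^ 2 - b ^ 2 := by nlinarith
  nlinarith [mul_nonneg (show (0 : ℝ) ≤ 1 - 2 * c by linarith) hA, mul_nonneg c1 hB,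
    mul_nonneg c1 (sub_nonneg.2 c2)]

theorem ternary_bound_neg {a b c : ℝ} (a1 : 0 ≤ a) (a2 : a ≤ 1 / 2) (b1 : 0 ≤ b) (b2 : b ≤ 1 / 2)
    (c1 : 0 ≤ c) (c2 : c ≤ 1 / 2) (hS : a + b + c ≤ 1) :
    a ^ 2 + b ^ 2 + c ^ 2 + 2 * (a * b * c) ≤ 1 / 2 := by
  have ha := sub_nonneg.2 a2
  have hb := sub_nonneg.2 b2
  have hc := sub_nonneg.2 c2
  have h3 := mul_nonneg (mul_nonneg ha hb) hc
  have hab : 0 ≤ a * b + b * c + c * a := by positivity
  rcases le_total (1 / 2) (a + b + c) with h | h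
  · nlinarith [mul_nonneg ha hb, mul_nonneg hb hc, mul_nonneg hc ha,
      mul_nonneg (sub_nonneg.2 h) (sub_nonneg.2 hS)]
  · nlinarith [mul_nonneg (sub_nonneg.2 h) (show (0 : ℝ) ≤ a + b + c by linarith)]

/-- The determinant of a reduced ternary form with unit diagonal. -/
theorem half_le_ternary {f g h : ℝ} (hf : |f| ≤ 1 / 2) (hg : |g| ≤ 1 / 2) (hh : |h| ≤ 1 / 2)
    (h0 : 0 ≤ 1 + f + g + h) (h1 : 0 ≤ 1 + f - g - h) (h2 : 0 ≤ 1 - f + g - h)
    (h3 : 0 ≤ 1 - f - g + h) :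
    1 / 2 ≤ 1 + 2 * (f * g * h) - f ^ 2 - g ^ 2 - h ^ 2 := by
  have hsign : |f| + |g| + |h| ≤ 1 ∨ 0 ≤ f * g * h := by
    rcases le_total 0 f with a | a <;> rcases le_total 0 g with b | b <;>
      rcases le_total 0 h with c | c
    all_goals
      first
      | exact Or.inr (mul_nonneg (mul_nonneg a b) c)
      | exact Or.inr (mul_nonneg (mul_nonneg_of_nonpos_of_nonpos a b) c)
      | exact Or.inr (mul_nonneg_of_nonpos_of_nonpos (mul_nonpos_of_nonneg_of_nonpos a b) c)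
      | exact Or.inr (mul_nonneg_of_nonpos_of_nonpos (mul_nonpos_of_nonpos_of_nonneg a b) c)
      | exact Or.inl (by simp only [abs_of_nonneg, abs_of_nonpos, a, b, c]; linarith)
  have habs : |f * g * h| = |f| * |g| * |h| := by rw [abs_mul, abs_mul]
  rw [← sq_abs f, ← sq_abs g, ← sq_abs h]
  rcases hsign with hs | hs
  · have := ternary_bound_neg (abs_nonneg f) hf (abs_nonneg g) hg (abs_nonneg h) hh hs
    linarith [neg_abs_le (f * g * h)]
  · have := ternary_bound_pos (abs_nonneg f) hf (abs_nonneg g) hg (abs_nonneg h) hh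
    linarith [abs_of_nonneg hs]

/-- The value at an integral vector with three entries. -/
theorem ival_three (P : Matrix (Fin 3) (Fin 3) ℝ) (hs : P.IsSymm) (a b c : ℤ) :
    ival P ![a, b, c] = (a : ℝ) ^ 2 * P 0 0 + (b : ℝ) ^ 2 * P 1 1 + (c : ℝ) ^ 2 * P 2 2 +
      2 * (a * b * P 0 1 + a * c * P 0 2 + b * c * P 1 2) := by
  simp [ival, quad, dotProduct, mulVec, Fin.sum_univ_three, hs.apply 1 0, hs.apply 2 0,
    hs.apply 2 1]
  ring

/-- Three variables. -/
theorem hermiteInv_ternary_le {Q : Matrix (Fin 3) (Fin 3) ℝ} (hQ : Q.PosDef) :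
    hermiteInv Q ≤ 2 := by
  classical
  obtain ⟨P, hP, hm, hmax, hext⟩ := exists_least_det 2
  refine (hmax Q hQ).trans ?_
  have hp := ((extreme_iff hP).1.1 hext).1
  obtain ⟨k, G, hk, hG, hdiag, hmin, hdet, hle⟩ := exists_unit_diag hP hp hm
  have hk1 : (k : ℝ) ^ 2 = 1 := by
    have hlow := detLower_le hP fun v hv => hm ▸ minVal_le hP hv
    rw [detLower, Real.sqrt_le_left hP.det_pos.le] at hlow
    norm_num at hlow
    have h1 : (1 : ℤ) ≤ k ^ 2 := pow_two_pos_of_ne_zero hk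
    have h3 : (k : ℝ) ^ 2 < 4 := by nlinarith [hP.det_pos]
    have h4 : k ^ 2 < (4 : ℤ) := by exact_mod_cast h3
    have h5 : k < 2 := by nlinarith
    have h6 : -2 < k := by nlinarith
    interval_cases k <;> first | contradiction | norm_num
  rw [hk1, one_mul] at hdet
  rw [hermiteInv, hm, one_pow, div_le_iff₀ hP.det_pos, ← hdet]
  have hs := (posDef_iff_quad.1 hG).1
  have hb : ∀ a b c : ℤ, (![a, b, c] : Fin 3 → ℤ) ≠ 0 →
      1 ≤ (a : ℝ) ^ 2 + (b : ℝ) ^ 2 + (c : ℝ) ^ 2 +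
        2 * (a * b * G 0 1 + a * c * G 0 2 + b * c * G 1 2) := fun a b c h => by
    have := hmin _ h
    rw [ival_three G hs, hdiag, hdiag, hdiag, mul_one, mul_one, mul_one] at this
    exact this
  have e1 := hb 1 1 0 (by simp)
  have e2 := hb 1 (-1) 0 (by simp)
  have e3 := hb 1 0 1 (by simp)
  have e4 := hb 1 0 (-1) (by simp)
  have e5 := hb 0 1 1 (by simp)
  have e6 := hb 0 1 (-1) (by simp)
  have e7 := hb 1 1 1 (by simp)
  have e8 := hb 1 (-1) (-1) (by simp)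
  have e9 := hb (-1) 1 (-1) (by simp)
  have e10 := hb (-1) (-1) 1 (by simp)
  norm_num at e1 e2 e3 e4 e5 e6 e7 e8 e9 e10
  have key := half_le_ternary (f := G 0 1) (g := G 0 2) (h := G 1 2)
    (abs_le.2 ⟨by linarith, by linarith⟩) (abs_le.2 ⟨by linarith, by linarith⟩)
    (abs_le.2 ⟨by linarith, by linarith⟩) (by linarith) (by linarith) (by linarith) (by linarith)
  have e : G.det = 1 + 2 * (G 0 1 * G 0 2 * G 1 2) - G 0 1 ^ 2 - G 0 2 ^ 2 - G 1 2 ^ 2 := by
    rw [det_fin_three, hdiag, hdiag, hdiag, hs.apply 0 1, hs.apply 0 2, hs.apply 1 2]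
    ring
  linarith

/-- Four variables, by Mordell's inequality. -/
theorem hermiteInv_quaternary_le {P : Matrix (Fin 4) (Fin 4) ℝ} (hP : P.PosDef) :
    hermiteInv P ≤ 4 := by
  have h := mordell_inequality (n := 2) (fun _ hQ => hermiteInv_ternary_le hQ) hP
  refine le_of_pow_le_pow_left₀ two_ne_zero (by norm_num) (h.trans_eq ?_)
  norm_num

/-- The binary form `x² + x y + y²`. -/
def latticeA2 : Matrix (Fin 2) (Fin 2) ℝ := !![1, 1 / 2; 1 / 2, 1]

/-- The ternary form `∑ x i ² + ∑ x i x j`. -/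
def latticeA3 : Matrix (Fin 3) (Fin 3) ℝ :=
  !![1, 1 / 2, 1 / 2; 1 / 2, 1, 1 / 2; 1 / 2, 1 / 2, 1]

/-- The quaternary form `∑ x i ² - x 0 (x 1 + x 2 + x 3)`. -/
def latticeD4 : Matrix (Fin 4) (Fin 4) ℝ :=
  !![1, -1 / 2, -1 / 2, -1 / 2; -1 / 2, 1, 0, 0; -1 / 2, 0, 1, 0; -1 / 2, 0, 0, 1]

theorem quad_latticeA2 (x : Fin 2 → ℝ) : quad latticeA2 x = x 0 ^ 2 + x 1 ^ 2 + x 0 * x 1 := by
  simp [latticeA2, quad, dotProduct, mulVec, Fin.sum_univ_two]
  ring

theorem quad_latticeA3 (x : Fin 3 → ℝ) : quad latticeA3 x =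
    x 0 ^ 2 + x 1 ^ 2 + x 2 ^ 2 + x 0 * x 1 + x 0 * x 2 + x 1 * x 2 := by
  simp [latticeA3, quad, dotProduct, mulVec, Fin.sum_univ_three]
  ring

theorem quad_latticeD4 (x : Fin 4 → ℝ) : quad latticeD4 x =
    x 0 ^ 2 + x 1 ^ 2 + x 2 ^ 2 + x 3 ^ 2 - x 0 * (x 1 + x 2 + x 3) := by
  simp [latticeD4, quad, dotProduct, mulVec, Fin.sum_univ_four]
  ring

theorem posDef_latticeA2 : latticeA2.PosDef := by
  refine posDef_iff_quad.2 ⟨?_, fun x hx => ?_⟩
  · ext i j; fin_cases i <;> fin_cases j <;> simp [latticeA2]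
  · rw [quad_latticeA2]
    by_contra! h
    have h0 : x 0 = 0 := by nlinarith [sq_nonneg (x 0 + x 1), sq_nonneg (x 1)]
    have h1 : x 1 = 0 := by nlinarith [sq_nonneg (x 0 + x 1)]
    exact hx (funext fun i => by fin_cases i <;> assumption)

theorem posDef_latticeA3 : latticeA3.PosDef := by
  refine posDef_iff_quad.2 ⟨?_, fun x hx => ?_⟩
  · ext i j; fin_cases i <;> fin_cases j <;> simp [latticeA3]
  · rw [quad_latticeA3]
    by_contra! h
    have h0 : x 0 = 0 := by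
      nlinarith [sq_nonneg (x 0 + x 1 + x 2), sq_nonneg (x 1), sq_nonneg (x 2)]
    have h1 : x 1 = 0 := by nlinarith [sq_nonneg (x 0 + x 1 + x 2), sq_nonneg (x 2)]
    have h2 : x 2 = 0 := by nlinarith [sq_nonneg (x 0 + x 1 + x 2)]
    exact hx (funext fun i => by fin_cases i <;> assumption)

theorem posDef_latticeD4 : latticeD4.PosDef := by
  refine posDef_iff_quad.2 ⟨?_, fun x hx => ?_⟩
  · ext i j; fin_cases i <;> fin_cases j <;> simp [latticeD4]
  · rw [quad_latticeD4]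
    by_contra! h
    have h0 : x 0 = 0 := by
      nlinarith [sq_nonneg (x 0 - 2 * x 1), sq_nonneg (x 0 - 2 * x 2), sq_nonneg (x 0 - 2 * x 3)]
    rw [h0] at h
    have h1 : x 1 = 0 := by nlinarith [sq_nonneg (x 2), sq_nonneg (x 3)]
    have h2 : x 2 = 0 := by nlinarith [sq_nonneg (x 1), sq_nonneg (x 3)]
    have h3 : x 3 = 0 := by nlinarith [sq_nonneg (x 1), sq_nonneg (x 2)]
    exact hx (funext fun i => by fin_cases i <;> assumption)

theorem minVal_eq_one {n : ℕ} {P : Matrix (Fin (n + 1)) (Fin (n + 1)) ℝ} (hP : P.PosDef)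
    (h00 : P 0 0 = 1) {q : (Fin (n + 1) → ℤ) → ℤ} (hq : ∀ v, ival P v = q v) : minVal P = 1 := by
  refine le_antisymm ((minVal_le hP (w := Pi.single 0 1) (by simp)).trans_eq ?_)
    (one_le_minVal hP hq)
  rw [ival, show (fun i => ((Pi.single 0 1 : Fin (n + 1) → ℤ) i : ℝ)) = Pi.single 0 1 from
    funext fun i => by rcases eq_or_ne i 0 with rfl | h <;> simp [*]]
  simp [quad, h00]

theorem hermiteInv_latticeA2 : hermiteInv latticeA2 = 4 / 3 := by
  rw [hermiteInv, minVal_eq_one posDef_latticeA2 (by simp [latticeA2])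
    (q := fun v => v 0 ^ 2 + v 1 ^ 2 + v 0 * v 1)
    fun v => by rw [ival, quad_latticeA2]; push_cast; rfl]
  simp [latticeA2, det_fin_two]
  norm_num

theorem hermiteInv_latticeA3 : hermiteInv latticeA3 = 2 := by
  rw [hermiteInv, minVal_eq_one posDef_latticeA3 (by simp [latticeA3])
    (q := fun v => v 0 ^ 2 + v 1 ^ 2 + v 2 ^ 2 + v 0 * v 1 + v 0 * v 2 + v 1 * v 2)
    fun v => by rw [ival, quad_latticeA3]; push_cast; rfl]
  simp [latticeA3, det_fin_three]
  norm_num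

theorem hermiteInv_latticeD4 : hermiteInv latticeD4 = 4 := by
  rw [hermiteInv, minVal_eq_one posDef_latticeD4 (by simp [latticeD4])
    (q := fun v => v 0 ^ 2 + v 1 ^ 2 + v 2 ^ 2 + v 3 ^ 2 - v 0 * (v 1 + v 2 + v 3))
    fun v => by rw [ival, quad_latticeD4]; push_cast; rfl]
  simp [latticeD4, det_succ_row_zero, Fin.sum_univ_succ, Fin.succAbove]
  norm_num

end FA.Perfect

end
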